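import Fermat.Agent.S29.H871.Surj
import Fermat.Agent.S29.H32.CoeffDescent
import Fermat.Agent.S29.H32.AutOrbit
import Fermat.Prelude.Def_ModularCurve_ArithmeticGalois

/-!
# S29 / E3, part 10: the concrete constant field extension `F_k ⊆ F_Ω` of Laurent base changes

For `k ⊆ Ω` algebraically closed of characteristic zero and `F₀ ≤ ℚ((q))`:
`laurentBaseChange Ω F₀` is the constant field extension of `laurentBaseChange k F₀`
(`isConstExt_lbc`), and `Aut(Ω/k)`, acting on coefficients, is a descent action
(`isDescentAction_lbc`).  Consequence (`exists_descent_laurent`): descent of Kummer functions, in a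
form free of auxiliary instances.

(helper871)
-/

set_option autoImplicit false
set_option linter.unusedSectionVars false

noncomputable section

namespace Fermat.Agent.S29.H871

open AlgebraicCurve TensorProduct IntermediateField ModularCurve HahnSeries

variable {k Ω : Type*} [Field k] [Field Ω] [Algebra k Ω] [Algebra ℚ k] [Algebra ℚ Ω]
  [IsScalarTower ℚ k Ω]
variable (F₀ : IntermediateField ℚ (LaurentSeries ℚ))

/-- Coefficientwise base change `F_k → F_Ω`. -/
def lbcMap : laurentBaseChange k F₀ →+* laurentBaseChange Ω F₀ where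
  toFun x := ⟨coeffMap (algebraMap k Ω) x, H32.coeffMap_mem_laurentBaseChange_of_mem F₀ x.2⟩
  map_one' := Subtype.ext (map_one _)
  map_mul' x y := Subtype.ext (map_mul _ _ _)
  map_zero' := Subtype.ext (map_zero _)
  map_add' x y := Subtype.ext (map_add _ _ _)

@[simp]
theorem coe_lbcMap (x : laurentBaseChange k F₀) :
    ((lbcMap (Ω := Ω) F₀ x : laurentBaseChange Ω F₀) : LaurentSeries Ω)
      = coeffMap (algebraMap k Ω) (x : LaurentSeries k) := rfl

/-- The algebra structure `F_k → F_Ω` (to be used as a local instance). -/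
@[reducible] def lbcAlgebra : Algebra (laurentBaseChange k F₀) (laurentBaseChange Ω F₀) :=
  (lbcMap F₀).toAlgebra

/-- The algebra structure `k → F_Ω` (to be used as a local instance). -/
@[reducible] def lbcAlgebraBase : Algebra k (laurentBaseChange Ω F₀) :=
  ((algebraMap Ω (laurentBaseChange Ω F₀)).comp (algebraMap k Ω)).toAlgebra

attribute [local instance] lbcAlgebra lbcAlgebraBase

theorem lbc_algebraMap_apply (x : laurentBaseChange k F₀) :
    algebraMap (laurentBaseChange k F₀) (laurentBaseChange Ω F₀) x = lbcMap F₀ x := rfl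

theorem lbc_isScalarTower₁ :
    IsScalarTower k (laurentBaseChange k F₀) (laurentBaseChange Ω F₀) :=
  IsScalarTower.of_algebraMap_eq fun c => by
    apply Subtype.ext
    show algebraMap Ω (LaurentSeries Ω) (algebraMap k Ω c)
      = coeffMap (algebraMap k Ω) (algebraMap k (LaurentSeries k) c)
    rw [H32.coeffMap_algebraMap_up]

theorem lbc_isScalarTower₂ : IsScalarTower k Ω (laurentBaseChange Ω F₀) :=
  IsScalarTower.of_algebraMap_eq fun _ => rfl

attribute [local instance] lbc_isScalarTower₁ lbc_isScalarTower₂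

section ConstExt

theorem coe_mulMapF_sum {I : Type*} (β : I → Ω) (g : I →₀ laurentBaseChange k F₀) :
    ((mulMapF k (laurentBaseChange k F₀) Ω (laurentBaseChange Ω F₀)
        (g.sum fun i m => m ⊗ₜ[k] β i) : laurentBaseChange Ω F₀) : LaurentSeries Ω)
      = H32.comb β (g.mapRange (Subtype.val) rfl) := by
  classical
  induction g using Finsupp.induction with
  | zero => simp [H32.comb_zero]
  | single_add i y g hi hy ih =>
    rw [Finsupp.sum_add_index' (by intro j; simp) (by intro j a b; simp [add_tmul]),
      map_add, Finsupp.mapRange_add (by intro a b; rfl), H32.comb_add,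
      Finsupp.sum_single_index (by simp), Finsupp.mapRange_single, H32.comb_single]
    rw [IntermediateField.coe_add, ih, mulMapF_tmul]
    congr 1
    rw [mul_comm]
    rfl

theorem isConstExt_lbc : IsConstExt k (laurentBaseChange k F₀) Ω (laurentBaseChange Ω F₀) := by
  classical
  let β := Module.Basis.ofVectorSpace k Ω
  refine ⟨?_, ?_⟩
  · rw [injective_iff_map_eq_zero]
    intro x hx
    obtain ⟨g, rfl⟩ := (TensorProduct.equivFinsuppOfBasisRight β).symm.surjective x
    rw [TensorProduct.equivFinsuppOfBasisRight_symm_apply] at hx ⊢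
    have h1 := congrArg (Subtype.val) hx
    rw [coe_mulMapF_sum] at h1
    have h2 := H32.eq_zero_of_comb_eq_zero β.linearIndependent _ h1
    have h3 : g = 0 := by
      refine Finsupp.ext fun i => ?_
      have := DFunLike.congr_fun h2 i
      simpa using this
    rw [h3]
    simp
  · intro z
    have hz : (z : LaurentSeries Ω) ∈ IntermediateField.adjoin Ω
        (⇑(coeffEmb Ω) '' (F₀ : Set (LaurentSeries ℚ))) := z.2
    obtain ⟨r, hr, s, hs, hzrs⟩ := IntermediateField.mem_adjoin_iff_div.mp hz
    have key : ∀ a ∈ Algebra.adjoin Ω (⇑(coeffEmb Ω) '' (F₀ : Set (LaurentSeries ℚ))),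
        ∃ x : laurentBaseChange k F₀ ⊗[k] Ω,
          ((mulMapF k (laurentBaseChange k F₀) Ω (laurentBaseChange Ω F₀) x :
            laurentBaseChange Ω F₀) : LaurentSeries Ω) = a := by
      intro a ha
      obtain ⟨g, hg, rfl⟩ := H32.exists_comb_of_mem_span F₀ β ha
      let g' : Module.Basis.ofVectorSpaceIndex k Ω →₀ laurentBaseChange k F₀ :=
        Finsupp.onFinset g.support (fun i => ⟨g i, hg i⟩) (by
          intro i hi
          rw [Finsupp.mem_support_iff]
          intro h0
          exact hi (Subtype.ext h0))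
      refine ⟨g'.sum fun i m => m ⊗ₜ[k] β i, ?_⟩
      rw [coe_mulMapF_sum]
      congr 1
      ext i : 1
      simp [g']
    obtain ⟨x, hx⟩ := key r hr
    obtain ⟨y, hy⟩ := key s hs
    by_cases hs0 : s = 0
    · refine ⟨0, 1, by simp, ?_⟩
      have : z = 0 := Subtype.ext (by rw [hzrs, hs0, div_zero]; rfl)
      rw [this]; simp
    · refine ⟨x, y, ?_, ?_⟩
      · intro h0
        apply hs0
        rw [← hy, h0]; rfl
      · apply Subtype.ext
        rw [IntermediateField.coe_mul, hx, hy, hzrs]
        field_simp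

end ConstExt

section Action

/-- `Aut(Ω/k)` acting on the coefficients of `F_Ω`. -/
def lbcAction : (Ω ≃ₐ[k] Ω) →* SemilinearAut Ω (laurentBaseChange Ω F₀) :=
  (arithmeticGalois F₀).comp (AlgEquiv.restrictScalarsHom ℚ)

theorem coe_lbcAction_smul (σ : Ω ≃ₐ[k] Ω) (x : laurentBaseChange Ω F₀) :
    ((lbcAction F₀ σ • x : laurentBaseChange Ω F₀) : LaurentSeries Ω)
      = coeffMap ((σ : Ω ≃+* Ω) : Ω →+* Ω) (x : LaurentSeries Ω) := rfl

theorem baseAut_lbcAction (σ : Ω ≃ₐ[k] Ω) (c : Ω) :
    SemilinearAut.baseAut (lbcAction F₀ σ) c = σ c := rfl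

theorem isDescentAction_lbc [IsAlgClosed k] [IsAlgClosed Ω] :
    IsDescentAction k (laurentBaseChange k F₀) (lbcAction (k := k) (Ω := Ω) F₀) where
  fixes σ f := by
    apply Subtype.ext
    rw [coe_lbcAction_smul]
    show coeffMap _ (coeffMap (algebraMap k Ω) (f : LaurentSeries k)) = coeffMap _ _
    rw [coeffMap_coeffMap]
    exact coeffMap_congr (RingHom.ext fun c => σ.commutes c) _
  fixed x hx := by
    have hcoeff : ∀ n, (x : LaurentSeries Ω).coeff n ∈ Set.range (algebraMap k Ω) := by
      intro n
      apply H32.mem_range_of_finite_orbit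
      refine (Set.finite_singleton ((x : LaurentSeries Ω).coeff n)).subset ?_
      rintro _ ⟨σ, rfl⟩
      have h := congrArg (fun y : laurentBaseChange Ω F₀ => (y : LaurentSeries Ω).coeff n) (hx σ)
      simp only [coe_lbcAction_smul, coeffMap_coeff] at h
      exact h
    obtain ⟨y, hy, hyx⟩ := H32.exists_of_coeff_mem_range F₀ x.2 hcoeff
    exact ⟨⟨y, hy⟩, Subtype.ext hyx⟩
  finite_orbit c h := by
    obtain ⟨a, ha⟩ := H32.mem_range_of_finite_orbit c h
    exact ⟨a, ha⟩

end Action

end Fermat.Agent.S29.H871
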