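import Fermat.Agent.S29.H871.Fin
import Fermat.Agent.S29.H441.DC
import Fermat.Agent.S29.H282.FracK

/-!
# S29 / M4b / K3 — sub-piece `K3-DFROM` over `ℂ` (easy half of the dictionary + ROOT)

Port of `H441/DCEmb.lean`, `H441/DC.lean` from `(ℚ̄, FF N)` to `(ℂ, F_ℂ)`:

* `sigmaTauC N τ : F_ℂ →+* ℂ((t))`, the Taylor embedding at `τ ∈ ℍ`;
* `sigmaTauC_eq_of_qexp` : it maps the `q`-expansion of a good function to its Taylor expansion;
* `dFromStatement : DFromStatement N p`;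
* `pieceK3 : M4b.PieceK3 N p`  (**PIECE K3 of M4b, unconditional**).

(helper871)
-/

set_option autoImplicit false
set_option linter.unusedSectionVars false

noncomputable section

namespace Fermat.Agent.S29.H871

open ModularCurve AlgebraicCurve CongruenceSubgroup UpperHalfPlane
open scoped MatrixGroups Manifold
open Fermat.Agent.S24 Fermat.Agent.S24.H997 Fermat.Agent.S24.H648 Fermat.Agent.S24.H708
open Fermat.Agent.S24.H624 Fermat.Agent.S24.Deg457
open Fermat.Agent.S29 Fermat.Agent.S29.M4b Fermat.Agent.S29.M4b.K3 Fermat.Agent.S29.H282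
open Fermat.Agent.S29.H882

variable (N : ℕ) [NeZero N]

/-- Every element of `ℂ[j(q^d) : d ∣ N]` is the `q`-expansion of a good function. -/
theorem exists_goodC (r : RNK ℂ N) :
    ∃ G : ℍ → ℂ, G ∈ goodRing N ∧ HasQExp 1 G (r : LaurentSeries ℂ) :=
  AK_le_goodQ N r.2

/-- The good function with `q`-expansion `r`. -/
def goodOfC (r : RNK ℂ N) : ℍ → ℂ := (exists_goodC N r).choose

theorem goodOfC_mem (r : RNK ℂ N) : goodOfC N r ∈ goodRing N := (exists_goodC N r).choose_spec.1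

theorem goodOfC_hasQExp (r : RNK ℂ N) : HasQExp 1 (goodOfC N r) (r : LaurentSeries ℂ) :=
  (exists_goodC N r).choose_spec.2

theorem goodOfC_mdiff (r : RNK ℂ N) : MDifferentiable 𝓘(ℂ) 𝓘(ℂ) (goodOfC N r) :=
  (goodOfC_mem N r).1

theorem goodOfC_eq_of_hasQExp {r : RNK ℂ N} {G : ℍ → ℂ}
    (hG : HasQExp 1 G (r : LaurentSeries ℂ)) : goodOfC N r = G :=
  (goodOfC_hasQExp N r).eq_of_eq hG

theorem goodOfC_add (r s : RNK ℂ N) : goodOfC N (r + s) = goodOfC N r + goodOfC N s := by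
  apply goodOfC_eq_of_hasQExp
  exact (goodOfC_hasQExp N r).add (goodOfC_hasQExp N s)

theorem goodOfC_mul (r s : RNK ℂ N) : goodOfC N (r * s) = goodOfC N r * goodOfC N s := by
  apply goodOfC_eq_of_hasQExp
  exact (goodOfC_hasQExp N r).mul (goodOfC_hasQExp N s)

theorem goodOfC_one : goodOfC N (1 : RNK ℂ N) = 1 := by
  apply goodOfC_eq_of_hasQExp
  exact HasQExp.one 1

theorem goodOfC_zero : goodOfC N (0 : RNK ℂ N) = 0 := by
  apply goodOfC_eq_of_hasQExp
  exact HasQExp.zero 1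

theorem goodOfC_eq_zero_iff (r : RNK ℂ N) : goodOfC N r = 0 ↔ r = 0 := by
  constructor
  · intro h
    have h1 := (goodOfC_hasQExp N r).eq_zero_iff.mpr h
    exact Subtype.ext h1
  · rintro rfl
    exact goodOfC_zero N

/-- `r ↦ goodOfC N r` as a ring homomorphism into the ring of holomorphic functions. -/
def goodHomC : RNK ℂ N →+* holoRing where
  toFun r := ⟨goodOfC N r, goodOfC_mdiff N r⟩
  map_one' := Subtype.ext (goodOfC_one N)
  map_mul' r s := Subtype.ext (goodOfC_mul N r s)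
  map_zero' := Subtype.ext (goodOfC_zero N)
  map_add' r s := Subtype.ext (goodOfC_add N r s)

@[simp] theorem coe_goodHomC (r : RNK ℂ N) :
    ((goodHomC N r : holoRing) : ℍ → ℂ) = goodOfC N r := rfl

theorem goodHomC_injective : Function.Injective (goodHomC N) := by
  rw [injective_iff_map_eq_zero]
  intro r hr
  have : goodOfC N r = 0 := congrArg (fun f : holoRing => (f : ℍ → ℂ)) hr
  exact (goodOfC_eq_zero_iff N r).mp this

/-- Taylor expansion at `τ` on `ℂ[j(q^d)]`. -/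
def sTauC (τ : ℍ) : RNK ℂ N →+* LaurentSeries ℂ := (taylorLaurent τ).comp (goodHomC N)

theorem sTauC_injective (τ : ℍ) : Function.Injective (sTauC N τ) :=
  (taylorLaurent_injective τ).comp (goodHomC_injective N)

/-- **The Taylor embedding at `τ`** of the function field of `X₀(N)` over `ℂ`. -/
def sigmaTauC (τ : ℍ) : FFK ℂ N →+* LaurentSeries ℂ := liftFK (sTauC N τ) (sTauC_injective N τ)

theorem sigmaTauC_inclRNK (τ : ℍ) (r : RNK ℂ N) :
    sigmaTauC N τ (inclRNK ℂ N r) = taylorLaurent τ (goodHomC N r) :=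
  liftFK_inclRNK _ _ r

/-- **Main bridge**: the Taylor embedding maps the `q`-expansion of a good function to its
Taylor expansion. -/
theorem sigmaTauC_eq_of_qexp (τ : ℍ) (u : FFK ℂ N) {G : ℍ → ℂ} (hG1 : G ∈ goodRing N)
    (hG2 : qexpFun 1 G = (u : LaurentSeries ℂ)) :
    sigmaTauC N τ u = taylorLaurent τ (H441.holoOf N hG1) := by
  obtain ⟨r, t, ht, hu⟩ := exists_div_inclRNK ℂ N u
  have htF : inclRNK ℂ N t ≠ 0 := fun h => ht (inclRNK_injective ℂ N (by rw [h, map_zero]))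
  have hmul : u * inclRNK ℂ N t = inclRNK ℂ N r := by
    rw [hu, div_mul_cancel₀ _ htF]
  have hmulL : ((u : FFK ℂ N) : LaurentSeries ℂ) * (t : LaurentSeries ℂ)
      = (r : LaurentSeries ℂ) := by
    have := congrArg (fun x : FFK ℂ N => (x : LaurentSeries ℂ)) hmul
    simpa using this
  have hGq : HasQExp 1 G ((u : FFK ℂ N) : LaurentSeries ℂ) :=
    ⟨isMerInf_of_mem_goodRing hG1, hG2⟩
  have hprod : HasQExp 1 (G * goodOfC N t) (r : LaurentSeries ℂ) := by
    have h := hGq.mul (goodOfC_hasQExp N t)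
    rwa [hmulL] at h
  have hfun : goodOfC N r = G * goodOfC N t := goodOfC_eq_of_hasQExp N hprod
  have hholo : goodHomC N r = H441.holoOf N hG1 * goodHomC N t := Subtype.ext hfun
  have hst : sTauC N τ t ≠ 0 := fun h => ht (sTauC_injective N τ (by rw [h, map_zero]))
  have h1 : sigmaTauC N τ u = sTauC N τ r / sTauC N τ t := by
    have := congrArg (sigmaTauC N τ) hu
    rw [this]
    exact liftFK_div _ _ r t
  rw [h1]
  show taylorLaurent τ (goodHomC N r) / taylorLaurent τ (goodHomC N t) = _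
  rw [hholo, map_mul]
  exact mul_div_cancel_right₀ _ hst

theorem sigmaTauC_inclRNK_order (τ : ℍ) (r : RNK ℂ N) :
    0 ≤ (sigmaTauC N τ (inclRNK ℂ N r)).order := by
  rw [sigmaTauC_inclRNK, taylorLaurent_apply]
  exact H441.dc_order_ofPowerSeries_nonneg _

theorem sigmaTauC_algebraMap_order (τ : ℍ) (c : ℂ) :
    0 ≤ (sigmaTauC N τ (algebraMap ℂ (FFK ℂ N) c)).order := by
  have h : algebraMap ℂ (FFK ℂ N) c = inclRNK ℂ N (algebraMap ℂ (RNK ℂ N) c) :=
    ((inclRNK ℂ N).commutes c).symm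
  rw [h]
  exact sigmaTauC_inclRNK_order N τ _

theorem sigmaTauC_order_of_qexp (τ : ℍ) {u : FFK ℂ N} {G : ℍ → ℂ} (hG1 : G ∈ goodRing N)
    (hG2 : qexpFun 1 G = (u : LaurentSeries ℂ)) (hG0 : G ≠ 0) :
    (sigmaTauC N τ u).order = ((ordAt τ G).toNat : ℤ) := by
  rw [sigmaTauC_eq_of_qexp N τ u hG1 hG2, taylorLaurent_apply]
  refine order_ofPowerSeries ?_
  rw [order_taylorAt, H441.coe_holoOf, ENat.natCast_toNat (ordAt_ne_top hG1.1 hG0 τ)]

variable (p : ℕ) [NeZero p]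

/-- **K3-DFROM.** -/
theorem dFromStatement : DFromStatement N p := by
  intro f hf0 hdvd
  have hp : p ≠ 0 := NeZero.ne p
  obtain ⟨k, hk⟩ := Nat.exists_eq_succ_of_ne_zero hp
  obtain ⟨r, t, ht, hf⟩ := exists_div_inclRNK ℂ N f
  have htF : inclRNK ℂ N t ≠ 0 := fun h => ht (inclRNK_injective ℂ N (by rw [h, map_zero]))
  -- the cleared function
  have hu : f * inclRNK ℂ N t ^ p = inclRNK ℂ N (r * t ^ k) := by
    rw [hf, map_mul, map_pow, hk, pow_succ]
    field_simp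
  set G := goodOfC N (r * t ^ k) with hG
  have hG1 : G ∈ goodRing N := goodOfC_mem N _
  have hGq : HasQExp 1 G ((r * t ^ k : RNK ℂ N) : LaurentSeries ℂ) := goodOfC_hasQExp N _
  have hu0 : f * inclRNK ℂ N t ^ p ≠ 0 := mul_ne_zero hf0 (pow_ne_zero _ htF)
  have hG2 : qexpFun 1 G = ((f * inclRNK ℂ N t ^ p : FFK ℂ N) : LaurentSeries ℂ) := by
    rw [hu]
    exact hGq.qexpFun_eq
  have hG0 : G ≠ 0 := by
    intro h0
    have h1 := hGq.eq_zero_iff.mpr h0
    apply hu0
    rw [hu]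
    exact Subtype.ext h1
  have hdvd' : ∀ w : Place ℂ (FFK ℂ N), (p : ℤ) ∣ w.ord (f * inclRNK ℂ N t ^ p) := by
    intro w
    rw [w.ord_mul hf0 (pow_ne_zero _ htF), Fermat.Agent.S24.H117.ord_pow]
    exact dvd_add (hdvd w) (Dvd.intro _ rfl)
  have hord : ∀ τ : ℍ, ∃ m : ℕ,
      analyticOrderAt (G ∘ ofComplex) (τ : ℂ) = ((p * m : ℕ) : ℕ∞) := by
    intro τ
    have h := H441.dc_dvd_order_of_forall_dvd (K := ℂ) (sigmaTauC N τ)
      (sigmaTauC_algebraMap_order N τ) hdvd'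
    rw [sigmaTauC_order_of_qexp N τ hG1 hG2 hG0] at h
    obtain ⟨m, hm⟩ := Int.natCast_dvd_natCast.mp h
    refine ⟨m, ?_⟩
    have hne : ordAt τ G ≠ ⊤ := ordAt_ne_top hG1.1 hG0 τ
    rw [← ordAt_def, ← hm, ENat.natCast_toNat hne]
  obtain ⟨V, hV, hVG⟩ := H751.exists_pow_eq_UHP hG1.1 p hp hord
  have hpow : (fun τ => V τ ^ p) = G := funext hVG
  refine ⟨(inclRNK ℂ N t : FFK ℂ N), V, (inclRNK ℂ N t).2, ?_, hV, ?_, ?_⟩
  · intro h0
    exact htF (Subtype.ext h0)
  · rw [hpow]; exact hG1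
  · rw [hpow, hG2]
    rfl

/-- **PIECE K3 of M4b** (descent `ℂ → ℚ̄`), unconditional. -/
theorem pieceK3 : PieceK3 N p := pieceK3_of_dfrom (dFromStatement N p)

end Fermat.Agent.S29.H871
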