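import Fermat.Agent.S29.H871.Restrict

/-!
# S29 / E3, part 5: uniqueness of the base-changed place and the dichotomy

(helper871)
-/

set_option autoImplicit false
set_option linter.unusedSectionVars false

noncomputable section

namespace Fermat.Agent.S29.H871

open AlgebraicCurve TensorProduct
open Fermat.Agent.S24.H117 (mem_iff_ord_nonneg ord_pow ord_add_eq_of_lt place_ext_of_le
  mem_of_ord_nonneg ord_nonneg_of_mem)

variable {K F K' F' : Type*} [Field K] [Field F] [Field K'] [Field F']
  [Algebra K F] [Algebra K' F'] [Algebra K K'] [Algebra F F'] [Algebra K F']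
  [IsScalarTower K F F'] [IsScalarTower K K' F']

section Unique

variable {v : Place K F} (hv : IsRationalPlace v) (w : Place K' F')

theorem muA_mem_of_le (h1 : ∀ f ∈ v.toValuationSubring, 0 ≤ w.ord (algebraMap F F' f))
    (x : v.toValuationSubring ⊗[K] K') : muA K' F' v x ∈ w.toValuationSubring := by
  induction x using TensorProduct.induction_on with
  | zero => rw [map_zero]; exact zero_mem _
  | tmul a c =>
    rw [muA_tmul]
    exact mul_mem (mem_of_ord_nonneg w (h1 a a.2)) (w.algebraMap_mem' c)
  | add x y hx hy => rw [map_add]; exact add_mem hx hy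

theorem epsHom_one_tmul (c : K') :
    epsHom hv ((1 : v.toValuationSubring) ⊗ₜ[K] c) = c := by
  rw [epsHom_tmul, map_one, map_one, one_mul]

theorem ord_muA_eq_zero_of_eps_ne_zero
    (h1 : ∀ f ∈ v.toValuationSubring, 0 ≤ w.ord (algebraMap F F' f))
    {π : v.toValuationSubring} (hπ : Irreducible π)
    (h2 : 0 < w.ord (algebraMap F F' (π : F)))
    {s : v.toValuationSubring ⊗[K] K'} (hs : epsHom hv s ≠ 0) :
    w.ord (muA K' F' v s) = 0 := by
  set c := epsHom hv s with hc
  have hker : epsHom hv (s - (1 : v.toValuationSubring) ⊗ₜ[K] c) = 0 := by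
    rw [map_sub, epsHom_one_tmul, sub_self]
  obtain ⟨t, ht⟩ := exists_eq_piT_mul_of_epsHom_eq_zero hv hπ hker
  have hs' : s = (1 : v.toValuationSubring) ⊗ₜ[K] c + piT π * t := by
    rw [← ht]; ring
  have hμ : muA K' F' v s = algebraMap K' F' c + algebraMap F F' (π : F) * muA K' F' v t := by
    conv_lhs => rw [hs']
    rw [map_add, map_mul, muA_piT, muA_tmul]
    simp
  have hc0 : algebraMap K' F' c ≠ 0 := by
    intro h
    exact hs ((algebraMap K' F').injective (by rw [h, map_zero]))
  have hordc : w.ord (algebraMap K' F' c) = 0 := Fermat.Agent.S24.FF.ord_algebraMap w c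
  rw [hμ]
  by_cases hzero : algebraMap F F' (π : F) * muA K' F' v t = 0
  · rw [hzero, add_zero, hordc]
  · have hπ0 : algebraMap F F' (π : F) ≠ 0 := left_ne_zero_of_mul hzero
    have ht0 : muA K' F' v t ≠ 0 := right_ne_zero_of_mul hzero
    have hordt : 0 ≤ w.ord (muA K' F' v t) := ord_nonneg_of_mem w (muA_mem_of_le w h1 t)
    have hlt : w.ord (algebraMap K' F' c) <
        w.ord (algebraMap F F' (π : F) * muA K' F' v t) := by
      rw [w.ord_mul hπ0 ht0, hordc]
      omega
    rw [ord_add_eq_of_lt w hlt hc0, hordc]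

variable [IsConstExt K F K' F']

/-- **Uniqueness**: a place of `F'/K'` whose valuation ring contains `O_v` and whose maximal
ideal contains a uniformizer of `v` is the base change of `v`. -/
theorem placeBC_eq_of_le (h1 : ∀ f ∈ v.toValuationSubring, 0 ≤ w.ord (algebraMap F F' f))
    {π : v.toValuationSubring} (hπ : Irreducible π)
    (h2 : 0 < w.ord (algebraMap F F' (π : F))) : placeBC K' F' hv = w := by
  apply place_ext_of_le
  intro z hz
  have hz' : IsIntegralBC K' F' hv z := mem_of_ord_nonneg (placeBC K' F' hv) hz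
  obtain ⟨x, s, hs, hxs⟩ := hz'
  have hs0 : muA K' F' v s ≠ 0 := muA_ne_zero (eps_ne_zero_ne_zero hv hs)
  rcases eq_or_ne z 0 with rfl | hz0
  · simp
  have hords := ord_muA_eq_zero_of_eps_ne_zero hv w h1 hπ h2 hs
  have hordx : 0 ≤ w.ord (muA K' F' v x) := ord_nonneg_of_mem w (muA_mem_of_le w h1 x)
  rw [← hxs, w.ord_mul hz0 hs0, hords, add_zero] at hordx
  exact hordx

end Unique

section Dichotomy

variable [IsConstExt K F K' F'] (w : Place K' F')

/-- **Dichotomy**: a place of `F'/K'` which is nontrivial on `F` and whose restriction to `F` is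
rational is the base change of its restriction. -/
theorem placeBC_restrictPlace (hnt : ∃ t : F, rord w t ≠ 0)
    (hrat : IsRationalPlace (restrictPlace (K := K) w hnt)) :
    placeBC K' F' hrat = w := by
  obtain ⟨π, hπ⟩ := IsDiscreteValuationRing.exists_irreducible
    (restrictPlace (K := K) w hnt).toValuationSubring
  refine placeBC_eq_of_le hrat w ?_ hπ ?_
  · intro f hf
    exact (mem_restrictRing w).mp hf
  · have hπ0 : (π : F) ≠ 0 := fun h => hπ.ne_zero (Subtype.ext h)
    have hmem : 0 ≤ rord w (π : F) := (mem_restrictRing w).mp π.2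
    by_contra hcon
    have h0 : rord w (π : F) = 0 := le_antisymm (not_lt.mp hcon) hmem
    have hπne : π ≠ 0 := hπ.ne_zero
    exact hπ.not_isUnit ((isUnit_restrictRing_iff w hπne).mpr h0)

/-- The restriction of `placeBC v` to `F` is `v`. -/
theorem rord_placeBC {v : Place K F} (hv : IsRationalPlace v) (f : F) :
    rord (placeBC K' F' hv) f = v.ord f :=
  ord_placeBC_algebraMap hv f

end Dichotomy

end Fermat.Agent.S29.H871
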