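import Fermat.Agent.S29.H871.FunctionField

/-!
# S29 / E3, part 7: base change of divisors and of `Pic0`

(helper871)
-/

set_option autoImplicit false
set_option linter.unusedSectionVars false

noncomputable section

namespace Fermat.Agent.S29.H871

open AlgebraicCurve TensorProduct IntermediateField

variable {K F K' F' : Type*} [Field K] [Field F] [Field K'] [Field F']
  [Algebra K F] [Algebra K' F'] [Algebra K K'] [Algebra F F'] [Algebra K F']
  [IsScalarTower K F F'] [IsScalarTower K K' F']
  [IsConstExt K F K' F'] [IsAlgClosed K] [CharZero K] [IsAlgClosed K']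

variable (K' F') {t : F} (ht : Transcendental K t) [FiniteDimensional K⟮t⟯ F]

/-- Base change of a place of a function field over an algebraically closed field. -/
def bcPlace (v : Place K F) : Place K' F' := placeBC K' F' (isRationalPlace_all ht v)

variable {K' F'}

theorem bcPlace_injective : Function.Injective (bcPlace K' F' ht) := fun _ _ h =>
  placeBC_injective _ _ h

theorem ord_bcPlace (v : Place K F) (f : F) :
    (bcPlace K' F' ht v).ord (algebraMap F F' f) = v.ord f :=
  ord_placeBC_algebraMap _ f

/-- A place of `F'` that is nontrivial on `F` is a base change. -/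
theorem exists_bcPlace_eq (w : Place K' F') (hnt : ∃ f : F, rord w f ≠ 0) :
    ∃ v : Place K F, bcPlace K' F' ht v = w :=
  ⟨restrictPlace (K := K) w hnt, placeBC_restrictPlace w hnt _⟩

theorem rord_eq_zero_of_notMem_range {w : Place K' F'} (hw : w ∉ Set.range (bcPlace K' F' ht))
    (f : F) : rord w f = 0 := by
  by_contra h
  exact hw (exists_bcPlace_eq ht w ⟨f, h⟩)

theorem deg_bcPlace (v : Place K F) : (bcPlace K' F' ht v).deg = v.deg := by
  have := finiteDimensional_adjoin_algebraMap (K := K) (K' := K') (F' := F') t
  rw [Fermat.Agent.S24.FF.deg_eq_one v ht,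
    Fermat.Agent.S24.FF.deg_eq_one _ (transcendental_algebraMap (K' := K') (F' := F') ht)]

variable (K' F')

/-- Base change of divisors. -/
def bcDiv : Divisor K F →+ Divisor K' F' :=
  Finsupp.mapDomain.addMonoidHom (bcPlace K' F' ht)

variable {K' F'}

@[simp]
theorem bcDiv_single (v : Place K F) (n : ℤ) :
    bcDiv K' F' ht (Finsupp.single v n) = Finsupp.single (bcPlace K' F' ht v) n := by
  simp [bcDiv]

theorem bcDiv_apply_bcPlace (D : Divisor K F) (v : Place K F) :
    bcDiv K' F' ht D (bcPlace K' F' ht v) = D v :=
  Finsupp.mapDomain_apply (bcPlace_injective ht) D v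

theorem bcDiv_apply_of_notMem_range (D : Divisor K F) {w : Place K' F'}
    (hw : w ∉ Set.range (bcPlace K' F' ht)) : bcDiv K' F' ht D w = 0 :=
  Finsupp.mapDomain_of_notMem_range D w hw

theorem bcDiv_injective : Function.Injective (bcDiv K' F' ht) :=
  Finsupp.mapDomain_injective (bcPlace_injective ht)

theorem degree_bcDiv (D : Divisor K F) :
    Divisor.degree (bcDiv K' F' ht D) = Divisor.degree D := by
  have h : (Divisor.degree (K := K') (F := F')).comp (bcDiv K' F' ht) = Divisor.degree := by
    refine Finsupp.addHom_ext fun v n => ?_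
    rw [AddMonoidHom.comp_apply, bcDiv_single, Divisor.degree_single, Divisor.degree_single,
      deg_bcPlace]
  exact DFunLike.congr_fun h D

/-- The base change of the divisor of `f ∈ F` is the divisor of `f` in `F'`. -/
theorem bcDiv_eq_ord {f : F} {D : Divisor K F} (hD : ∀ v : Place K F, D v = v.ord f)
    (w : Place K' F') : bcDiv K' F' ht D w = w.ord (algebraMap F F' f) := by
  by_cases hw : w ∈ Set.range (bcPlace K' F' ht)
  · obtain ⟨v, rfl⟩ := hw
    rw [bcDiv_apply_bcPlace, hD, ord_bcPlace]
  · rw [bcDiv_apply_of_notMem_range ht D hw]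
    exact (rord_eq_zero_of_notMem_range ht hw f).symm

theorem bcDiv_mem_principal {D : Divisor K F} (hD : D ∈ Divisor.principal (K := K) (F := F)) :
    bcDiv K' F' ht D ∈ Divisor.principal (K := K') (F := F') := by
  obtain ⟨f, hf, hDf⟩ := hD
  exact ⟨algebraMap F F' f, by simpa using hf, fun w => bcDiv_eq_ord ht hDf w⟩

variable (K' F')

/-- Base change of degree-zero divisors. -/
def bcDegZero : Divisor.degZero (K := K) (F := F) →+ Divisor.degZero (K := K') (F := F') :=
  ((bcDiv K' F' ht).domRestrict (Divisor.degZero (K := K) (F := F))).codRestrict _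
    fun D => by
      rw [Divisor.mem_degZero]
      show Divisor.degree (bcDiv K' F' ht (D : Divisor K F)) = 0
      rw [degree_bcDiv]
      exact D.2

/-- **Base change on `Pic0`** along a constant field extension. -/
def bcPic0 : Pic0 K F →+ Pic0 K' F' :=
  QuotientAddGroup.map _ _ (bcDegZero K' F' ht) (by
    rintro ⟨D, hD0⟩ hD
    simp only [AddSubgroup.mem_addSubgroupOf] at hD ⊢
    exact bcDiv_mem_principal ht hD)

variable {K' F'}

@[simp]
theorem coe_bcDegZero (D : Divisor.degZero (K := K) (F := F)) :
    (bcDegZero K' F' ht D : Divisor K' F') = bcDiv K' F' ht (D : Divisor K F) := rfl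

theorem bcPic0_mk (D : Divisor.degZero (K := K) (F := F)) :
    bcPic0 K' F' ht (Pic0.mk D) = Pic0.mk (bcDegZero K' F' ht D) := rfl

end Fermat.Agent.S29.H871
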