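import Fermat.Agent.S29.H871.Inj
import Fermat.Agent.Lib.RR.Riemann
import Fermat.Agent.Lib.RR.H443.Bridge

/-!
# S29 / E3, part 9: descent of divisor classes with finite orbit

`G` acts semilinearly on `F'/K'` (constant field extension of `F/K`), fixing `F` pointwise, with
`F'^G = F`, and the elements of `K'` with finite orbit lie in `K`.

* `mem_range_bcPlace_of_finite_orbit` : a place of `F'` with finite `G`-orbit is a base change;
* `exists_bcDiv_sub_principal` : a divisor of degree `0` of `F'` whose class has finite `G`-orbit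
  is linearly equivalent to the base change of a divisor of `F`
  (Riemann's inequality: the first `n` with `ℓ(D + n P) ≥ 1` has `ℓ = 1`, so the effective divisor
  in the class of `D + n P` is unique, hence has finite orbit);
* `exists_descent_of_dvd_ord` : **Kummer form**: `f ∈ F'` with `p ∣ div f` and finitely many
  classes `[σ f]` modulo `K'ˣ (F'ˣ)^p` is `ι(f₀) * y ^ p` with `f₀ ∈ F`.

(helper871)
-/

set_option autoImplicit false
set_option linter.unusedSectionVars false

noncomputable section

namespace Fermat.Agent.S29.H871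

open AlgebraicCurve TensorProduct IntermediateField
open Fermat.Agent.S24.H117 (mem_iff_ord_nonneg ord_pow ord_add_eq_of_lt place_ext_of_le
  mem_of_ord_nonneg ord_nonneg_of_mem exists_ord_eq_one ord_div)
open Fermat.Agent.Lib.RR (ell prim)

variable {K F K' F' : Type*} [Field K] [Field F] [Field K'] [Field F']
  [Algebra K F] [Algebra K' F'] [Algebra K K'] [Algebra F F'] [Algebra K F']
  [IsScalarTower K F F'] [IsScalarTower K K' F']

variable {G : Type*} [Group G] {θ : G →* SemilinearAut K' F'} (hθ : IsDescentAction K F θ)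
variable [IsConstExt K F K' F'] [IsAlgClosed K] [CharZero K] [IsAlgClosed K'] [CharZero K']
variable {t : F} (ht : Transcendental K t) [FiniteDimensional K⟮t⟯ F]

section Places

include hθ in
theorem inMax_smul_sub_const (g : G) (w : Place K' F') (f : F) (c : K')
    (h : InMax w (algebraMap F F' f - algebraMap K' F' c)) :
    InMax (θ g • w) (algebraMap F F' f
      - algebraMap K' F' (SemilinearAut.baseAut (θ g) c)) := by
  have key : (θ g)⁻¹ • (algebraMap F F' f - algebraMap K' F' (SemilinearAut.baseAut (θ g) c))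
      = algebraMap F F' f - algebraMap K' F' c := by
    rw [smul_sub, ← map_inv, hθ.fixes, SemilinearAut.smul_algebraMap, map_inv,
      SemilinearAut.baseAut_inv]
    simp
  rcases h with h | h
  · left
    have h2 := congrArg (fun x => θ g • x) key
    simp only [smul_inv_smul] at h2
    rw [h2, h, smul_zero]
  · right
    rw [ord_smul_place, key]
    exact h

include hθ in
/-- A place of `F'` with finite orbit is a base change. -/
theorem mem_range_bcPlace_of_finite_orbit (w : Place K' F')
    (hw : (Set.range fun g : G => θ g • w).Finite) : w ∈ Set.range (bcPlace K' F' ht) := by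
  classical
  have hfd := finiteDimensional_adjoin_algebraMap (K := K) (K' := K') (F' := F') t
  have ht' := transcendental_algebraMap (K' := K') (F' := F') ht
  by_contra hnot
  have hr := rord_eq_zero_of_notMem_range ht hnot
  have htO : algebraMap F F' t ∈ w.toValuationSubring :=
    mem_of_ord_nonneg w (hr t).ge
  obtain ⟨c, hc⟩ := isRationalPlace_of_isAlgClosed w ht' _ htO
  have hcm : InMax w (algebraMap F F' t - algebraMap K' F' c) := inMax_of_mem_nonunits hc
  -- the value of `t` at a place
  let val : Place K' F' → K' := fun w' =>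
    if h : ∃ c' : K', InMax w' (algebraMap F F' t - algebraMap K' F' c') then h.choose else 0
  have hval : ∀ g : G, val (θ g • w) = SemilinearAut.baseAut (θ g) c := by
    intro g
    have h1 := inMax_smul_sub_const hθ g w t c hcm
    have hex : ∃ c' : K', InMax (θ g • w) (algebraMap F F' t - algebraMap K' F' c') := ⟨_, h1⟩
    have h2 : InMax (θ g • w) (algebraMap F F' t - algebraMap K' F' (val (θ g • w))) := by
      simp only [val, dif_pos hex]
      exact hex.choose_spec
    have h3 := h1.sub h2
    have heq : algebraMap F F' t - algebraMap K' F' (SemilinearAut.baseAut (θ g) c)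
        - (algebraMap F F' t - algebraMap K' F' (val (θ g • w)))
        = algebraMap K' F' (val (θ g • w) - SemilinearAut.baseAut (θ g) c) := by
      rw [map_sub]; ring
    rw [heq] at h3
    exact sub_eq_zero.mp h3.const_eq_zero
  have hfin : (Set.range fun g : G => SemilinearAut.baseAut (θ g) c).Finite := by
    refine (hw.image val).subset ?_
    rintro _ ⟨g, rfl⟩
    exact ⟨θ g • w, ⟨g, rfl⟩, hval g⟩
  obtain ⟨c₀, rfl⟩ := hθ.finite_orbit c hfin
  have hne : t - algebraMap K F c₀ ≠ 0 := by
    intro h
    rw [sub_eq_zero] at h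
    exact ht (h ▸ isAlgebraic_algebraMap c₀)
  have hmap : algebraMap F F' (t - algebraMap K F c₀)
      = algebraMap F F' t - algebraMap K' F' (algebraMap K K' c₀) := by
    rw [map_sub, ← IsScalarTower.algebraMap_apply, ← IsScalarTower.algebraMap_apply]
  have h0 := hr (t - algebraMap K F c₀)
  rw [rord, hmap] at h0
  rcases hcm with h | h
  · rw [← hmap] at h
    exact hne ((algebraMap F F').injective (by rw [h, map_zero]))
  · omega

/-- A divisor supported on base-changed places is a base change. -/
theorem exists_bcDiv_eq (E : Divisor K' F')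
    (hE : ∀ w ∈ E.support, w ∈ Set.range (bcPlace K' F' ht)) :
    ∃ E₀ : Divisor K F, bcDiv K' F' ht E₀ = E := by
  classical
  refine ⟨Finsupp.comapDomain (bcPlace K' F' ht) E (bcPlace_injective ht).injOn, ?_⟩
  exact Finsupp.mapDomain_comapDomain _ (bcPlace_injective ht) E (fun w hw => hE w hw)

end Places

section Main

open Fermat.Agent.Lib.RR in
include hθ in
/-- **Descent of divisor classes with finite orbit.**  A divisor of degree `0` of `F'` whose class
has finite orbit under `G` is linearly equivalent to the base change of a divisor of `F`. -/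
theorem exists_bcDiv_sub_principal (D' : Divisor K' F') (hdeg : Divisor.degree D' = 0)
    (hfin : ∃ s : Finset G, ∀ g : G, ∃ h ∈ s,
      θ g • D' - θ h • D' ∈ Divisor.principal (K := K') (F := F')) :
    ∃ D₀ : Divisor K F, Divisor.degree D₀ = 0 ∧
      ∃ u : F', u ≠ 0 ∧ ∀ w : Place K' F', bcDiv K' F' ht D₀ w = D' w + w.ord u := by
  classical
  have hfd := finiteDimensional_adjoin_algebraMap (K := K) (K' := K') (F' := F') t
  have ht' := transcendental_algebraMap (K' := K') (F' := F') ht
  have : FF1 K' F' := H443.ff1_of_isAlgClosed ht'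
  obtain ⟨v₀, _⟩ := exists_ord_pos (K := K) ht
  set P := bcPlace K' F' ht v₀ with hP
  -- `n` minimal with `ℓ(D' + n P) ≥ 1`
  have hex : ∃ n : ℕ, 1 ≤ ell (D' + n • prim P) := by
    refine ⟨genusR K' F', ?_⟩
    have h := riemann_inequality (D' + (genusR K' F') • prim P)
    rw [map_add, map_nsmul, degree_prim', hdeg] at h
    simp only [zero_add, nsmul_eq_mul, mul_one] at h
    omega
  set n := Nat.find hex with hn_def
  have hn : 1 ≤ ell (D' + n • prim P) := Nat.find_spec hex
  have hle : ell (D' + n • prim P) ≤ 1 := by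
    rcases Nat.eq_zero_or_pos n with h0 | hpos
    · rw [h0, zero_smul, add_zero]
      have := ell_le_degree_add_one (D := D') (by omega)
      omega
    · obtain ⟨m, hm⟩ := Nat.exists_eq_succ_of_ne_zero hpos.ne'
      have hmin := Nat.find_min hex (m := m) (by omega)
      have := ell_add_prim_le (D' + m • prim P) P
      rw [add_assoc, ← succ_nsmul, ← Nat.succ_eq_add_one, ← hm] at this
      omega
  have hone : Module.finrank K' (riemannRochSpace (D' + n • prim P)) = 1 := le_antisymm hle hn
  obtain ⟨⟨u, hu⟩, hu0, hspan⟩ := finrank_eq_one_iff'.mp hone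
  have hu0' : u ≠ 0 := fun h => hu0 (Subtype.ext h)
  -- the effective divisor
  have hEnn : ∀ w : Place K' F', 0 ≤ D' w + (n • prim P) w + w.ord u := by
    intro w
    have := (mem_L_iff.mp hu w).resolve_left hu0'
    simp only [Finsupp.coe_add, Pi.add_apply] at this
    omega
  -- `P` is fixed
  have hPfix : ∀ g : G, θ g • (n • prim P) = n • prim P := by
    intro g
    rw [smul_comm, prim, SemilinearAut.smul_single, hP, smul_bcPlace hθ]
  have hPfix' : ∀ (g : G) (w : Place K' F'), (n • prim P) ((θ g)⁻¹ • w) = (n • prim P) w := by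
    intro g w
    rw [← SemilinearAut.divisor_smul_apply, hPfix]
  -- invariance of `E` under the stabiliser of the class
  have hstab : ∀ k : G, θ k • D' - D' ∈ Divisor.principal (K := K') (F := F') →
      ∀ w : Place K' F', ((θ k)⁻¹ • w).ord u + D' ((θ k)⁻¹ • w) = w.ord u + D' w := by
    rintro k ⟨y, hy0, hy⟩ w
    have hku0 : θ k • u ≠ 0 := by
      rw [SemilinearAut.smul_def]; simpa using hu0'
    have hmem : y * (θ k • u) ∈ riemannRochSpace (D' + n • prim P) := by
      rw [mem_L_iff]
      intro w'
      right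
      rw [w'.ord_mul hy0 hku0, ← hy w', ord_smul_eq]
      have h1 := hEnn ((θ k)⁻¹ • w')
      rw [hPfix'] at h1
      simp only [Finsupp.coe_add, Pi.add_apply, Finsupp.coe_sub, Pi.sub_apply,
        SemilinearAut.divisor_smul_apply]
      omega
    obtain ⟨c, hc⟩ := hspan ⟨_, hmem⟩
    have hc' : algebraMap K' F' c * u = y * (θ k • u) := by
      have := congrArg Subtype.val hc
      simpa [Algebra.smul_def] using this
    have hc0 : c ≠ 0 := by
      rintro rfl
      rw [map_zero, zero_mul] at hc'
      exact mul_ne_zero hy0 hku0 hc'.symm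
    have hcF : algebraMap K' F' c ≠ 0 := by simpa using hc0
    have h2 : w.ord u = w.ord y + w.ord (θ k • u) := by
      rw [← w.ord_mul hy0 hku0, ← hc', w.ord_mul hcF hu0', Fermat.Agent.S24.FF.ord_algebraMap,
        zero_add]
    have h3 := hy w
    simp only [Finsupp.coe_sub, Pi.sub_apply, SemilinearAut.divisor_smul_apply] at h3
    rw [ord_smul_eq] at h2
    omega
  -- the effective divisor `E`
  set E : Divisor K' F' := D' + n • prim P + divOf u hu0' with hE
  have hEapp : ∀ w : Place K' F', E w = D' w + (n • prim P) w + w.ord u := by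
    intro w
    rw [hE]
    simp only [Finsupp.coe_add, Pi.add_apply, divOf_apply]
  have hEstab : ∀ k : G, θ k • D' - D' ∈ Divisor.principal (K := K') (F := F') →
      θ k • E = E := by
    intro k hk
    ext w
    rw [SemilinearAut.divisor_smul_apply, hEapp, hEapp, hPfix']
    have := hstab k hk w
    omega
  have hEeq : ∀ g h : G, θ g • D' - θ h • D' ∈ Divisor.principal (K := K') (F := F') →
      θ g • E = θ h • E := by
    intro g h hgh
    have h1 := SemilinearAut.smul_mem_principal (θ h)⁻¹ hgh
    rw [smul_sub, inv_smul_smul, ← mul_smul, ← map_inv, ← map_mul] at h1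
    have h2 := hEstab _ h1
    rw [map_mul, mul_smul, map_inv, inv_smul_eq_iff] at h2
    exact h2
  obtain ⟨s, hs⟩ := hfin
  have horb : ∀ w ∈ E.support, w ∈ Set.range (bcPlace K' F' ht) := by
    intro w hw
    apply mem_range_bcPlace_of_finite_orbit hθ ht
    have hfinite : (⋃ h ∈ s, ((θ h • E).support : Set (Place K' F'))).Finite :=
      s.finite_toSet.biUnion fun h _ => (θ h • E).support.finite_toSet
    refine hfinite.subset ?_
    rintro _ ⟨g, rfl⟩
    obtain ⟨h, hhs, hgh⟩ := hs g
    simp only [Set.mem_iUnion, Finset.mem_coe, Finsupp.mem_support_iff]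
    refine ⟨h, hhs, ?_⟩
    rw [← hEeq g h hgh, SemilinearAut.divisor_smul_apply_smul]
    exact Finsupp.mem_support_iff.mp hw
  obtain ⟨E₀, hE₀⟩ := exists_bcDiv_eq ht E horb
  refine ⟨E₀ - n • Finsupp.single v₀ 1, ?_, u, hu0', fun w => ?_⟩
  · rw [← degree_bcDiv (K' := K') (F' := F') ht, map_sub, hE₀, map_nsmul, bcDiv_single, hE,
      map_sub, map_add, map_add, degree_divOf, hdeg, map_nsmul, map_nsmul]
    simp [prim, hP]
  · rw [map_sub, hE₀, map_nsmul, bcDiv_single, Finsupp.sub_apply, hEapp]
    simp only [prim, hP]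
    ring

end Main

section Kummer

/-- Representatives of the fibres of a map to a finite type. -/
theorem exists_finset_rep {G X : Type*} [Finite X] (χ : G → X) :
    ∃ s : Finset G, ∀ g : G, ∃ h ∈ s, χ g = χ h := by
  classical
  haveI : Fintype (Set.range χ) := Fintype.ofFinite _
  let r : Set.range χ → G := fun x => x.2.choose
  have hr : ∀ x : Set.range χ, χ (r x) = x := fun x => x.2.choose_spec
  refine ⟨Finset.univ.image r, fun g => ⟨r ⟨χ g, g, rfl⟩, ?_, ?_⟩⟩
  · exact Finset.mem_image_of_mem _ (Finset.mem_univ _)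
  · exact (hr ⟨χ g, g, rfl⟩).symm

open Fermat.Agent.Lib.RR in
include hθ ht in
/-- **Descent of Kummer functions.**  Let `f' ∈ F'` have a divisor divisible by `p`, and assume
that the conjugates `σ f'` fall into finitely many classes modulo `K'ˣ (F'ˣ)^p`.  Then
`f' = ι(f) * y ^ p` with `f ∈ F` (whose divisor is again divisible by `p`). -/
theorem exists_descent_of_dvd_ord {p : ℕ} (hp : p ≠ 0) {f' : F'} (hf' : f' ≠ 0)
    (hdvd : ∀ w : Place K' F', (p : ℤ) ∣ w.ord f')
    (hfin : ∃ s : Finset G, ∀ g : G, ∃ h ∈ s, ∃ u : F', u ≠ 0 ∧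
      ∀ w : Place K' F', w.ord (θ g • f') = w.ord (θ h • f') + p * w.ord u) :
    ∃ (f : F) (y : F'), f ≠ 0 ∧ y ≠ 0 ∧ f' = algebraMap F F' f * y ^ p ∧
      ∀ v : Place K F, (p : ℤ) ∣ v.ord f := by
  classical
  have hfd := finiteDimensional_adjoin_algebraMap (K := K) (K' := K') (F' := F') t
  have ht' := transcendental_algebraMap (K' := K') (F' := F') ht
  have : FF1 K' F' := H443.ff1_of_isAlgClosed ht'
  have hpZ : (p : ℤ) ≠ 0 := by exact_mod_cast hp
  set D' : Divisor K' F' := Finsupp.mapRange (fun k : ℤ => k / (p : ℤ)) (by simp)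
    (divOf f' hf') with hD'
  have hD'app : ∀ w : Place K' F', (p : ℤ) * D' w = w.ord f' := by
    intro w
    rw [hD', Finsupp.mapRange_apply, divOf_apply]
    exact Int.mul_ediv_cancel' (hdvd w)
  have hdeg : Divisor.degree D' = 0 := by
    have h1 : p • D' = divOf f' hf' := by
      ext w
      rw [Finsupp.smul_apply, nsmul_eq_mul, hD'app, divOf_apply]
    have h2 : Divisor.degree (p • D') = 0 := by rw [h1, degree_divOf]
    rw [map_nsmul, nsmul_eq_mul] at h2
    rcases mul_eq_zero.mp h2 with h | h
    · exact absurd h hpZ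
    · exact h
  have hfin' : ∃ s : Finset G, ∀ g : G, ∃ h ∈ s,
      θ g • D' - θ h • D' ∈ Divisor.principal (K := K') (F := F') := by
    obtain ⟨s, hs⟩ := hfin
    refine ⟨s, fun g => ?_⟩
    obtain ⟨h, hhs, u, hu0, hu⟩ := hs g
    refine ⟨h, hhs, u, hu0, fun w => ?_⟩
    have h1 := hu w
    rw [ord_smul_eq, ord_smul_eq, ← hD'app, ← hD'app] at h1
    simp only [Finsupp.coe_sub, Pi.sub_apply, SemilinearAut.divisor_smul_apply]
    have h2 : (p : ℤ) * (D' ((θ g)⁻¹ • w) - D' ((θ h)⁻¹ • w)) = (p : ℤ) * w.ord u := by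
      rw [mul_sub]; omega
    exact mul_left_cancel₀ hpZ h2
  obtain ⟨D₀, -, u, hu0, hu⟩ := exists_bcDiv_sub_principal hθ ht D' hdeg hfin'
  have hup0 : u ^ p ≠ 0 := pow_ne_zero _ hu0
  have hx0 : f' * u ^ p ≠ 0 := mul_ne_zero hf' hup0
  have hx : ∀ w : Place K' F', bcDiv K' F' ht (p • D₀) w = w.ord (f' * u ^ p) := by
    intro w
    rw [map_nsmul, Finsupp.smul_apply, nsmul_eq_mul, hu, w.ord_mul hf' hup0,
      Fermat.Agent.S24.H117.ord_pow,
      mul_add, hD'app]
  obtain ⟨c, f, hc0, hf0, hxf⟩ := exists_algebraMap_of_bcDiv_eq hθ ht hx0 hx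
  obtain ⟨c₁, hc₁⟩ := IsAlgClosed.exists_pow_nat_eq c (Nat.pos_of_ne_zero hp)
  have hc₁0 : c₁ ≠ 0 := by
    rintro rfl
    rw [zero_pow hp] at hc₁
    exact hc0 hc₁.symm
  have hc₁F : algebraMap K' F' c₁ ≠ 0 := by simpa using hc₁0
  have hfF : algebraMap F F' f ≠ 0 := by simpa using hf0
  have hy0 : algebraMap K' F' c₁ / u ≠ 0 := div_ne_zero hc₁F hu0
  have hfy : f' = algebraMap F F' f * (algebraMap K' F' c₁ / u) ^ p := by
    rw [div_pow, ← map_pow, hc₁]
    field_simp
    rw [hxf]
    ring
  refine ⟨f, algebraMap K' F' c₁ / u, hf0, hy0, hfy, fun v => ?_⟩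
  have h1 := hdvd (bcPlace K' F' ht v)
  rw [hfy, (bcPlace K' F' ht v).ord_mul hfF (pow_ne_zero _ hy0), ord_bcPlace,
    Fermat.Agent.S24.H117.ord_pow] at h1
  exact (Int.dvd_add_left (dvd_mul_right _ _)).mp h1

end Kummer

end Fermat.Agent.S29.H871
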