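import Fermat.Agent.S29.M4b.K3.Main
import Fermat.Agent.S29.H282.K2
import Fermat.Agent.S29.H942.SameChar
import Fermat.Agent.S30.H109.Onto
import Fermat.Agent.S29.H871.Surj

/-!
# S29 / M4b / K3 — `K3-FIN` (finiteness of the orbit of a Kummer class) from `K3-DFROM`

* `DFromStatement N p` (sub-piece `K3-DFROM`, the easy half of the dictionary over `ℂ` + ROOT):
  every `f ∈ F_ℂ` with `p ∣ div f` is, up to a `p`-th power, the `q`-expansion of the `p`-th power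
  of a holomorphic function on `ℍ`.
* `dvd_ord_qexp_twisted` (F1, DICT-hard over `ℂ`, from `H282.dvd_ord_of_isAvatar_pow`).
* `dvd_ord_coeffMap` (F2, transport along automorphisms of `ℂ`).
* `finStatement_of_dfrom : DFromStatement N p → K3.FinStatement N p`.
* `pieceK3_of_dfrom : DFromStatement N p → M4b.PieceK3 N p`.

(helper871)
-/

set_option autoImplicit false
set_option linter.unusedSectionVars false

noncomputable section

namespace Fermat.Agent.S29.H871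

open ModularCurve AlgebraicCurve CongruenceSubgroup UpperHalfPlane
open scoped MatrixGroups Manifold
open Fermat.Agent.S24 Fermat.Agent.S24.H997 Fermat.Agent.S24.H648 Fermat.Agent.S24.H708
open Fermat.Agent.S24.H624
open Fermat.Agent.S29 Fermat.Agent.S29.M4b Fermat.Agent.S29.M4b.K3

variable (N : ℕ) [NeZero N] (p : ℕ) [NeZero p]

/-- SUB-PIECE `K3-DFROM`: every nonzero `f ∈ F_ℂ` all of whose orders are divisible by `p` is, up
to the `p`-th power of a nonzero element of `F_ℂ`, the `q`-expansion of `V ^ p` with `V`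
holomorphic on `ℍ` and `V ^ p` good. -/
def DFromStatement : Prop :=
  ∀ f : FC N, f ≠ 0 → (∀ w : Place ℂ (FC N), (p : ℤ) ∣ w.ord f) →
    ∃ (s : LaurentSeries ℂ) (V : ℍ → ℂ), s ∈ FC N ∧ s ≠ 0 ∧ MDifferentiable 𝓘(ℂ) 𝓘(ℂ) V ∧
      (fun τ => V τ ^ p) ∈ goodRing N ∧
      qexpFun 1 (fun τ => V τ ^ p) = (f : LaurentSeries ℂ) * s ^ p

variable {N p}

/-- **F1** (DICT-hard over `ℂ`): all orders of the `q`-expansion of `U ^ p`, `U` twisted of a
parabolic character, are divisible by `p`. -/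
theorem dvd_ord_qexp_twisted {c : G0 N → ZMod p} (hc : IsParHom c) {U : ℍ → ℂ}
    (hU : IsTwisted N p c U) (w : Place ℂ (FC N)) :
    (p : ℤ) ∣ w.ord ⟨qexpFun 1 (fun τ => U τ ^ p), H882.qexpFun_mem_FC hU.pow_mem⟩ := by
  have hq : HasQExp 1 (fun τ => U τ ^ p) (qexpFun 1 (fun τ => U τ ^ p)) :=
    H882.hasQExp_of_mem_goodRing hU.pow_mem
  have hinf : InfExp N (fun τ => U τ ^ p) (qExpand ℂ N (qexpFun 1 (fun τ => U τ ^ p))) :=
    H282.infExp_level_of_hasQExp hq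
  have hav : H282.IsAvatar (K := ℂ) (RingHom.id ℂ) (analyticCore N).toHolBase
      ⟨qexpFun 1 (fun τ => U τ ^ p), H882.qexpFun_mem_FC hU.pow_mem⟩
      (H282.twistedHol hc hU ^ p) := by
    show (analyticCore N).toHolBase.qexp _ = H282.ΦK (RingHom.id ℂ) N _
    have h1 : H282.ΦK (RingHom.id ℂ) N (qexpFun 1 (fun τ => U τ ^ p))
        = qExpand ℂ N (qexpFun 1 (fun τ => U τ ^ p)) :=
      congrArg (qExpand ℂ N) (coeffMap_id _)
    rw [h1]
    exact (expInf_spec (holToExp N (H282.twistedHol hc hU ^ p))).unique hinf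
  exact H282.dvd_ord_of_isAvatar_pow (K := ℂ) (ι := RingHom.id ℂ) (A := analyticCore N)
    (H282.isUnramified_twistedHol hc hU) hav w

/-- A ring automorphism of `ℂ` as a `ℚ`-algebra automorphism. -/
def ratAut (σ : ℂ ≃+* ℂ) : ℂ ≃ₐ[ℚ] ℂ :=
  AlgEquiv.ofRingEquiv (f := σ) (fun q => by simp)

theorem coe_ratAut (σ : ℂ ≃+* ℂ) : ((ratAut σ : ℂ ≃ₐ[ℚ] ℂ) : ℂ →+* ℂ) = (σ : ℂ →+* ℂ) :=
  RingHom.ext fun _ => rfl

theorem coeffMap_ringEquiv_mem {x : LaurentSeries ℂ} (σ : ℂ ≃+* ℂ) (hx : x ∈ FC N) :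
    coeffMap (σ : ℂ →+* ℂ) x ∈ FC N := by
  rw [← coe_ratAut]
  exact coeffMap_mem_laurentBaseChange (ratAut σ) hx

/-- **F2** (transport): the divisibility of all orders by `p` is preserved by automorphisms of
the coefficient field. -/
theorem dvd_ord_coeffMap (σ : ℂ ≃+* ℂ) {f : LaurentSeries ℂ} (hf : f ∈ FC N)
    (hdvd : ∀ w : Place ℂ (FC N), (p : ℤ) ∣ w.ord ⟨f, hf⟩) (w : Place ℂ (FC N)) :
    (p : ℤ) ∣ w.ord ⟨coeffMap (σ : ℂ →+* ℂ) f, coeffMap_ringEquiv_mem σ hf⟩ := by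
  set g : SemilinearAut ℂ (FC N) := arithmeticGalois (modularFunctionFieldFull N) (ratAut σ)
    with hg
  have h1 : (⟨coeffMap (σ : ℂ →+* ℂ) f, coeffMap_ringEquiv_mem σ hf⟩ : FC N)
      = g • (⟨f, hf⟩ : FC N) := by
    apply Subtype.ext
    show coeffMap (σ : ℂ →+* ℂ) f = coeffMap ((ratAut σ : ℂ ≃ₐ[ℚ] ℂ) : ℂ →+* ℂ) f
    rw [coe_ratAut]
  rw [h1, ord_smul_eq]
  exact hdvd _

theorem coeffMap_ne_zero_of_injective {R S : Type*} [CommRing R] [CommRing S] (φ : R →+* S)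
    (hφ : Function.Injective φ) {x : LaurentSeries R} (hx : x ≠ 0) : coeffMap φ x ≠ 0 := by
  intro h
  apply hx
  ext k
  have := congrArg (fun y : LaurentSeries S => y.coeff k) h
  simp only [coeffMap_coeff, HahnSeries.coeff_zero] at this
  rw [HahnSeries.coeff_zero]
  exact hφ (by rw [this, map_zero])

/-- **K3-FIN from K3-DFROM.** -/
theorem finStatement_of_dfrom (h : DFromStatement N p) : FinStatement N p := by
  let _ := algKC
  intro c hc U hU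
  classical
  set f := qexpFun 1 (fun τ => U τ ^ p) with hf
  have hfC : f ∈ FC N := H882.qexpFun_mem_FC hU.pow_mem
  have hf0 : f ≠ 0 := H942.qexpFun_pow_ne_zero_of_isTwisted N p hU
  have key : ∀ σ : ℂ ≃ₐ[Kbar] ℂ, ∃ (cσ : G0 N → ZMod p) (s : LaurentSeries ℂ) (V : ℍ → ℂ),
      (∀ γ γ' : G0 N, cσ (γ * γ') = cσ γ + cσ γ') ∧ s ∈ FC N ∧ s ≠ 0 ∧ IsTwisted N p cσ V ∧
      qexpFun 1 (fun τ => V τ ^ p) = coeffMap (σ : ℂ →+* ℂ) f * s ^ p := by
    intro σ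
    have hcoe : (((σ : ℂ ≃+* ℂ)) : ℂ →+* ℂ) = (σ : ℂ →+* ℂ) := RingHom.ext fun _ => rfl
    have hσf : coeffMap (σ : ℂ →+* ℂ) f ∈ FC N := by
      rw [← hcoe]; exact coeffMap_ringEquiv_mem _ hfC
    have hσf0 : coeffMap (σ : ℂ →+* ℂ) f ≠ 0 :=
      coeffMap_ne_zero_of_injective _ σ.injective hf0
    have hdvd : ∀ w : Place ℂ (FC N), (p : ℤ) ∣ w.ord ⟨coeffMap (σ : ℂ →+* ℂ) f, hσf⟩ := by
      intro w
      have := dvd_ord_coeffMap (σ : ℂ ≃+* ℂ) hfC (dvd_ord_qexp_twisted hc hU) w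
      simpa only [hcoe] using this
    obtain ⟨s, V, hs, hs0, hV, hVg, hVq⟩ :=
      h ⟨_, hσf⟩ (fun h0 => hσf0 (congrArg Subtype.val h0)) hdvd
    have hVq' : qexpFun 1 (fun τ => V τ ^ p) = coeffMap (σ : ℂ →+* ℂ) f * s ^ p := hVq
    have hVne : ∃ τ, V τ ≠ 0 := by
      by_contra hall
      push Not at hall
      have hz : (fun τ => V τ ^ p) = 0 := by
        funext τ
        rw [hall τ, zero_pow (NeZero.ne p)]
        rfl
      have hq0 : qexpFun 1 (fun τ => V τ ^ p) = 0 :=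
        (qexpFun_eq_zero_iff (H882.isMerInf_of_mem_goodRing hVg)).mpr hz
      rw [hVq'] at hq0
      exact mul_ne_zero hσf0 (pow_ne_zero _ hs0) hq0
    obtain ⟨cσ, hadd, hchar⟩ := Fermat.Agent.S30.H109.exists_hom_hasChar N p hV hVne
      (fun γ hγ τ => hVg.2.1 γ hγ τ)
    exact ⟨cσ, s, V, hadd, hs, hs0, ⟨hV, hVne, hchar, hVg⟩, hVq'⟩
  choose cσ s V hadd hs hs0 hVtw hVq using key
  let X := {c : G0 N → ZMod p | ∀ γ γ' : G0 N, c (γ * γ') = c γ + c γ'}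
  have : Finite X := (Fermat.Agent.S30.H109.finite_hom_set N p).to_subtype
  obtain ⟨S, hS⟩ := exists_finset_rep (fun σ : ℂ ≃ₐ[Kbar] ℂ => (⟨cσ σ, hadd σ⟩ : X))
  refine ⟨(fun τ : ℂ ≃ₐ[Kbar] ℂ => coeffMap (τ : ℂ →+* ℂ) f) '' (S : Set (ℂ ≃ₐ[Kbar] ℂ)),
    S.finite_toSet.image _, fun σ => ?_⟩
  obtain ⟨τ, hτS, hστ⟩ := hS σ
  have hc_eq : cσ σ = cσ τ := congrArg Subtype.val hστ
  have hVτ : IsTwisted N p (cσ σ) (V τ) := hc_eq ▸ hVtw τ
  obtain ⟨g, hg, hg0, hfg⟩ := H942.exists_pow_mul_eq_of_realised N p (hVtw σ) hVτ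
    (hs σ) (hs0 σ) (hs τ) (hs0 τ) (hVq σ) (hVq τ)
  exact ⟨_, ⟨τ, hτS, rfl⟩, g, hg, hg0, by rw [hfg]; ring⟩

/-- **PIECE K3 from K3-DFROM.** -/
theorem pieceK3_of_dfrom (h : DFromStatement N p) : PieceK3 N p :=
  pieceK3_of_fin N p (finStatement_of_dfrom h)

end Fermat.Agent.S29.H871
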