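import Fermat.Agent.S29.H871.Dichotomy

/-!
# S29 / E3, part 6: the constant field extension of a function field is a function field

If `F/K` is a function field with coordinate `t` (`K` algebraically closed of characteristic
zero) and `F'/K'` is its constant field extension, then `t` is still transcendental over `K'`
and `F'` is finite over `K'(t)`.

(helper871)
-/

set_option autoImplicit false
set_option linter.unusedSectionVars false

noncomputable section

namespace Fermat.Agent.S29.H871

open AlgebraicCurve TensorProduct IntermediateField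

variable {K F K' F' : Type*} [Field K] [Field F] [Field K'] [Field F']
  [Algebra K F] [Algebra K' F'] [Algebra K K'] [Algebra F F'] [Algebra K F']
  [IsScalarTower K F F'] [IsScalarTower K K' F']

section Zero

variable [IsAlgClosed K] [CharZero K]

/-- A nonconstant function has a zero. -/
theorem exists_ord_pos {t : F} (ht : Transcendental K t) [FiniteDimensional K⟮t⟯ F] :
    ∃ v : Place K F, 0 < v.ord t := by
  classical
  have hfin := Fermat.Agent.S24.FF.finite_setOf_ord_pos (K := K) ht
  have hsum := Fermat.Agent.S24.FF.sum_ord_eq_finrank (K := K) ht hfin.toFinset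
    (fun v => by simp)
  by_contra hcon
  have hempty : hfin.toFinset = ∅ := by
    ext v
    simp only [Set.Finite.mem_toFinset, Set.mem_ofPred_eq, Finset.notMem_empty, iff_false]
    intro hv
    exact hcon ⟨v, hv⟩
  rw [hempty, Finset.sum_empty] at hsum
  have hpos : 0 < Module.finrank K⟮t⟯ F := Module.finrank_pos
  omega

/-- A function without zeros is constant. -/
theorem mem_range_of_forall_ord_le {f : F} {t : F} (ht : Transcendental K t)
    [FiniteDimensional K⟮t⟯ F] (hf : ∀ v : Place K F, v.ord f ≤ 0) :
    f ∈ (algebraMap K F).range := by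
  by_contra hcon
  have hftr : Transcendental K f := Fermat.Agent.S24.FF.transcendental_of_not_mem_range hcon
  have : FiniteDimensional K⟮f⟯ F :=
    Fermat.Agent.S24.FF.finiteDimensional_adjoin_of_transcendental ht hftr
  obtain ⟨v, hv⟩ := exists_ord_pos (K := K) hftr
  have := hf v
  omega

end Zero

section Transc

variable [IsConstExt K F K' F'] [IsAlgClosed K] [CharZero K] [IsAlgClosed K']

theorem isRationalPlace_all {t : F} (ht : Transcendental K t) [FiniteDimensional K⟮t⟯ F]
    (v : Place K F) : IsRationalPlace v :=
  isRationalPlace_of_isAlgClosed v ht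

/-- The coordinate stays transcendental after constant field extension. -/
theorem transcendental_algebraMap {t : F} (ht : Transcendental K t) [FiniteDimensional K⟮t⟯ F] :
    Transcendental K' (algebraMap F F' t) := by
  intro halg
  obtain ⟨c, hc⟩ := Fermat.Agent.S24.FF.mem_range_of_isAlgebraic halg
  obtain ⟨v, hv⟩ := exists_ord_pos (K := K) ht
  have hrat := isRationalPlace_all ht v
  have h1 := ord_placeBC_algebraMap (K' := K') (F' := F') hrat t
  rw [← hc, Fermat.Agent.S24.FF.ord_algebraMap] at h1
  omega

end Transc

section Finite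

variable [IsConstExt K F K' F']

theorem algebraMap_mem_adjoin_of_mem_adjoin {t : F} {r : F} (hr : r ∈ K⟮t⟯) :
    algebraMap F F' r ∈ K'⟮algebraMap F F' t⟯ := by
  induction hr using IntermediateField.adjoin_induction with
  | mem x hx =>
    rw [Set.mem_singleton_iff] at hx
    rw [hx]
    exact mem_adjoin_simple_self K' _
  | algebraMap x =>
    rw [← IsScalarTower.algebraMap_apply K F F', IsScalarTower.algebraMap_apply K K' F']
    exact IntermediateField.algebraMap_mem _ _
  | add x y _ _ hx hy => rw [map_add]; exact add_mem hx hy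
  | inv x _ hx => rw [map_inv₀]; exact inv_mem hx
  | mul x y _ _ hx hy => rw [map_mul]; exact mul_mem hx hy

/-- The ring homomorphism `K(t) → K'(t)`. -/
def adjoinMap (t : F) : K⟮t⟯ →+* K'⟮algebraMap F F' t⟯ where
  toFun r := ⟨algebraMap F F' (r : F), algebraMap_mem_adjoin_of_mem_adjoin r.2⟩
  map_one' := Subtype.ext (by simp)
  map_mul' x y := Subtype.ext (by simp)
  map_zero' := Subtype.ext (by simp)
  map_add' x y := Subtype.ext (by simp)

theorem isIntegral_algebraMap {t : F} [FiniteDimensional K⟮t⟯ F] (f : F) :
    IsIntegral K'⟮algebraMap F F' t⟯ (algebraMap F F' f) := by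
  have hf : IsIntegral K⟮t⟯ f := Algebra.IsIntegral.isIntegral f
  exact IsIntegral.map_of_comp_eq (adjoinMap (K := K) (K' := K') (F' := F') t)
    (algebraMap F F') (RingHom.ext fun r => rfl) hf

/-- The constant field extension is finite over `K'(t)`. -/
theorem finiteDimensional_adjoin_algebraMap (t : F) [FiniteDimensional K⟮t⟯ F] :
    FiniteDimensional K'⟮algebraMap F F' t⟯ F' := by
  classical
  obtain ⟨S, hS⟩ := (Module.Finite.fg_top : (⊤ : Submodule K⟮t⟯ F).FG)
  set t' := algebraMap F F' t with ht'
  let S' : Set F' := (algebraMap F F') '' (S : Set F)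
  have hS'fin : Finite S' := (S.finite_toSet.image _).to_subtype
  let E : IntermediateField K'⟮t'⟯ F' := IntermediateField.adjoin K'⟮t'⟯ S'
  have hEfin : FiniteDimensional K'⟮t'⟯ E := by
    apply IntermediateField.finiteDimensional_adjoin
    rintro x ⟨f, _, rfl⟩
    exact isIntegral_algebraMap (K := K) (K' := K') f
  -- `E` contains the image of `F`
  have hF : ∀ f : F, algebraMap F F' f ∈ E := by
    intro f
    have hf : f ∈ Submodule.span K⟮t⟯ (S : Set F) := by rw [hS]; trivial
    induction hf using Submodule.span_induction with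
    | mem x hx => exact IntermediateField.subset_adjoin _ _ ⟨x, hx, rfl⟩
    | zero => rw [map_zero]; exact zero_mem _
    | add x y _ _ hx hy => rw [map_add]; exact add_mem hx hy
    | smul a x _ hx =>
      rw [Algebra.smul_def, map_mul]
      refine mul_mem ?_ hx
      have h1 : algebraMap F F' (algebraMap K⟮t⟯ F a) ∈ K'⟮t'⟯ :=
        algebraMap_mem_adjoin_of_mem_adjoin a.2
      exact IntermediateField.algebraMap_mem E (⟨_, h1⟩ : K'⟮t'⟯)
  have hK' : ∀ c : K', algebraMap K' F' c ∈ E := by
    intro c
    have h1 : algebraMap K' F' c ∈ K'⟮t'⟯ := IntermediateField.algebraMap_mem _ _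
    exact IntermediateField.algebraMap_mem E (⟨_, h1⟩ : K'⟮t'⟯)
  have hμ : ∀ x : F ⊗[K] K', mulMapF K F K' F' x ∈ E := by
    intro x
    induction x using TensorProduct.induction_on with
    | zero => rw [map_zero]; exact zero_mem _
    | tmul f c => rw [mulMapF_tmul]; exact mul_mem (hF f) (hK' c)
    | add x y hx hy => rw [map_add]; exact add_mem hx hy
  have htop : E = ⊤ := by
    rw [eq_top_iff]
    intro z _
    obtain ⟨x, y, hy, hxy⟩ := IsConstExt.gen (K := K) (F := F) (K' := K') z
    have hz : z = mulMapF K F K' F' x * (mulMapF K F K' F' y)⁻¹ := by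
      rw [← hxy]; field_simp
    rw [hz]
    exact mul_mem (hμ x) (inv_mem (hμ y))
  have hfin_top : FiniteDimensional K'⟮t'⟯ (⊤ : IntermediateField K'⟮t'⟯ F') := htop ▸ hEfin
  exact Module.Finite.equiv (IntermediateField.topEquiv (F := K'⟮t'⟯) (E := F')).toLinearEquiv

end Finite

end Fermat.Agent.S29.H871
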