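import Mathlib
import Fermat.Prelude.Def_AlgebraicCurve_DivisorClassGroup
import Fermat.Agent.S24.FFDegree
import Fermat.Agent.S24.H117.PlaceBasic

/-!
# S29 / E3 (descent `ℂ → ℚ̄`), part 1: the Gauss extension of a rational place

`K ⊆ K'` fields, `F/K` a field, `A = O_v` the valuation ring of a place `v` of `F/K` whose
residue field is `K`.  We study the ring `A ⊗[K] K'`:

* `epsHom v hv : A ⊗[K] K' →ₐ[K] K'`  ("reduction modulo `π`"),
* `epsHom_eq_zero_iff` : its kernel is generated by `π ⊗ 1`,
* `exists_pow_mul_eps_ne_zero` : every nonzero element is `(π ⊗ 1)^n * y` with `ε y ≠ 0`.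

(helper871)
-/

set_option autoImplicit false

noncomputable section

namespace Fermat.Agent.S29.H871

open AlgebraicCurve TensorProduct

variable {K F : Type*} [Field K] [Field F] [Algebra K F]

/-- A place is *rational* if every integral element is congruent to a constant modulo the
maximal ideal (automatic when `K` is algebraically closed and `F/K` is a function field). -/
def IsRationalPlace (v : Place K F) : Prop :=
  ∀ f ∈ v.toValuationSubring, ∃ a : K, f - algebraMap K F a ∈ v.toValuationSubring.nonunits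

theorem isRationalPlace_of_isAlgClosed [IsAlgClosed K] (v : Place K F) {x : F}
    (hx : Transcendental K x) [FiniteDimensional (IntermediateField.adjoin K {x}) F] :
    IsRationalPlace v :=
  fun _ hf => Fermat.Agent.S24.FF.exists_const_sub_mem_nonunits v hx hf

namespace IsRationalPlace

variable {v : Place K F} (hv : IsRationalPlace v)

include hv in
theorem algebraMap_residue_bijective :
    Function.Bijective (algebraMap K (IsLocalRing.ResidueField v.toValuationSubring)) := by
  refine ⟨(algebraMap K (IsLocalRing.ResidueField v.toValuationSubring)).injective, ?_⟩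
  intro c
  obtain ⟨f, rfl⟩ := IsLocalRing.residue_surjective c
  obtain ⟨a, ha⟩ := hv f f.2
  refine ⟨a, ?_⟩
  have hmem : f - algebraMap K v.toValuationSubring a ∈
      IsLocalRing.maximalIdeal v.toValuationSubring := by
    rw [← ValuationSubring.coe_mem_nonunits_iff]
    exact ha
  have h0 := (IsLocalRing.residue_eq_zero_iff _).mpr hmem
  rw [map_sub, sub_eq_zero] at h0
  rw [h0]
  rfl

/-- The residue field of a rational place is `K`. -/
def residueEquiv : K ≃ₐ[K] IsLocalRing.ResidueField v.toValuationSubring :=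
  AlgEquiv.ofBijective (Algebra.ofId K _) hv.algebraMap_residue_bijective

/-- The value of an integral element at a rational place. -/
def res : v.toValuationSubring →ₐ[K] K :=
  (hv.residueEquiv.symm : IsLocalRing.ResidueField v.toValuationSubring →ₐ[K] K).comp
    (IsScalarTower.toAlgHom K v.toValuationSubring (IsLocalRing.ResidueField v.toValuationSubring))

theorem res_eq_zero_iff (a : v.toValuationSubring) :
    hv.res a = 0 ↔ a ∈ IsLocalRing.maximalIdeal v.toValuationSubring := by
  unfold res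
  rw [AlgHom.comp_apply]
  erw [EmbeddingLike.map_eq_zero_iff (f := hv.residueEquiv.symm)]
  exact IsLocalRing.residue_eq_zero_iff a

theorem res_ne_zero_iff (a : v.toValuationSubring) : hv.res a ≠ 0 ↔ IsUnit a := by
  rw [Ne, res_eq_zero_iff, IsLocalRing.mem_maximalIdeal, mem_nonunits_iff, not_not]

end IsRationalPlace

section Eps

variable {K' : Type*} [Field K'] [Algebra K K']
variable {v : Place K F} (hv : IsRationalPlace v)

/-- Reduction `A ⊗[K] K' → K'`, `a ⊗ c ↦ a(v) c`. -/
def epsHom : v.toValuationSubring ⊗[K] K' →ₐ[K] K' :=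
  Algebra.TensorProduct.productMap ((Algebra.ofId K K').comp hv.res) (AlgHom.id K K')

@[simp]
theorem epsHom_tmul (a : v.toValuationSubring) (c : K') :
    epsHom hv (a ⊗ₜ[K] c) = algebraMap K K' (hv.res a) * c := by
  simp [epsHom, Algebra.ofId_apply]

theorem epsHom_sum_basis {I : Type*} (𝒞 : Module.Basis I K K') (b : I →₀ v.toValuationSubring) :
    epsHom hv (b.sum fun i m => m ⊗ₜ[K] 𝒞 i) = b.sum fun i m => hv.res m • 𝒞 i := by
  rw [Finsupp.sum, map_sum, Finsupp.sum]
  refine Finset.sum_congr rfl fun i _ => ?_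
  rw [epsHom_tmul, Algebra.smul_def]

theorem res_eq_zero_of_epsHom_sum_eq_zero {I : Type*} (𝒞 : Module.Basis I K K')
    (b : I →₀ v.toValuationSubring)
    (h : epsHom hv (b.sum fun i m => m ⊗ₜ[K] 𝒞 i) = 0) (i : I) : hv.res (b i) = 0 := by
  classical
  rw [epsHom_sum_basis] at h
  have hli := 𝒞.linearIndependent
  rw [linearIndependent_iff'] at hli
  by_cases hi : i ∈ b.support
  · exact hli b.support (fun i => hv.res (b i)) h i hi
  · rw [Finsupp.notMem_support_iff.mp hi, map_zero]

/-- The element `π ⊗ 1`. -/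
abbrev piT (π : v.toValuationSubring) : v.toValuationSubring ⊗[K] K' := π ⊗ₜ[K] (1 : K')

theorem piT_pow (π : v.toValuationSubring) (n : ℕ) :
    (piT (K' := K') π) ^ n = (π ^ n) ⊗ₜ[K] (1 : K') := by
  rw [piT, Algebra.TensorProduct.tmul_pow, one_pow]

theorem piT_pow_mul_sum {I : Type*} (𝒞 : I → K') (π : v.toValuationSubring) (n : ℕ)
    (s : Finset I) (c : I → v.toValuationSubring) :
    (piT (K' := K') π) ^ n * ∑ i ∈ s, c i ⊗ₜ[K] 𝒞 i = ∑ i ∈ s, (π ^ n * c i) ⊗ₜ[K] 𝒞 i := by
  rw [piT_pow, Finset.mul_sum]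
  refine Finset.sum_congr rfl fun i _ => ?_
  rw [Algebra.TensorProduct.tmul_mul_tmul, one_mul]

theorem epsHom_piT {π : v.toValuationSubring} (hπ : Irreducible π) :
    epsHom hv (piT (K' := K') π) = 0 := by
  rw [piT, epsHom_tmul, mul_one]
  have : hv.res π = 0 := by
    rw [hv.res_eq_zero_iff, IsLocalRing.mem_maximalIdeal, mem_nonunits_iff]
    exact hπ.not_isUnit
  rw [this, map_zero]

/-- **Kernel of the reduction**: `ε x = 0` iff `π ⊗ 1` divides `x`. -/
theorem exists_eq_piT_mul_of_epsHom_eq_zero {π : v.toValuationSubring} (hπ : Irreducible π)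
    {x : v.toValuationSubring ⊗[K] K'} (hx : epsHom hv x = 0) :
    ∃ y, x = piT π * y := by
  classical
  let 𝒞 := Module.Basis.ofVectorSpace K K'
  obtain ⟨b, rfl⟩ := TensorProduct.eq_repr_basis_right 𝒞 x
  have hb : ∀ i, ∃ c : v.toValuationSubring, b i = π * c := by
    intro i
    have h0 := res_eq_zero_of_epsHom_sum_eq_zero hv 𝒞 b hx i
    rw [hv.res_eq_zero_iff, hπ.maximalIdeal_eq, Ideal.mem_span_singleton] at h0
    exact h0
  choose c hc using hb
  refine ⟨∑ i ∈ b.support, c i ⊗ₜ[K] 𝒞 i, ?_⟩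
  have := piT_pow_mul_sum (K := K) 𝒞 π 1 b.support c
  rw [pow_one] at this
  rw [this, Finsupp.sum]
  refine Finset.sum_congr rfl fun i _ => ?_
  rw [pow_one, ← hc i]

theorem epsHom_eq_zero_iff {π : v.toValuationSubring} (hπ : Irreducible π)
    {x : v.toValuationSubring ⊗[K] K'} :
    epsHom hv x = 0 ↔ ∃ y, x = piT π * y := by
  refine ⟨exists_eq_piT_mul_of_epsHom_eq_zero hv hπ, ?_⟩
  rintro ⟨y, rfl⟩
  rw [map_mul, epsHom_piT hv hπ, zero_mul]

omit hv in
/-- Separatedness: an element divisible by all powers of `π ⊗ 1` vanishes. -/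
theorem eq_zero_of_forall_piT_pow_dvd {π : v.toValuationSubring} (hπ : Irreducible π)
    {x : v.toValuationSubring ⊗[K] K'} (hx : ∀ n : ℕ, ∃ y, x = piT π ^ n * y) : x = 0 := by
  classical
  let 𝒞 := Module.Basis.ofVectorSpace K K'
  obtain ⟨b, rfl⟩ := TensorProduct.eq_repr_basis_right 𝒞 x
  have hb : b = 0 := by
    refine Finsupp.ext fun i => ?_
    by_contra hbi
    have hbi' : b i ≠ 0 := hbi
    obtain ⟨n, hn⟩ := FiniteMultiplicity.of_not_isUnit hπ.not_isUnit hbi'
    obtain ⟨y, hy⟩ := hx (n + 1)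
    obtain ⟨c, rfl⟩ := TensorProduct.eq_repr_basis_right 𝒞 y
    apply hn
    -- compare coordinates
    have h1 : (piT (K' := K') π) ^ (n + 1) * (c.sum fun i m => m ⊗ₜ[K] 𝒞 i)
        = (c.mapRange (fun m => π ^ (n + 1) * m) (mul_zero _)).sum fun i m => m ⊗ₜ[K] 𝒞 i := by
      rw [Finsupp.sum, piT_pow_mul_sum, Finsupp.sum_mapRange_index (by intro i; simp)]
      rfl
    rw [h1] at hy
    have h3 : b = c.mapRange (fun m => π ^ (n + 1) * m) (mul_zero _) := by
      apply (TensorProduct.equivFinsuppOfBasisRight (M := v.toValuationSubring) 𝒞).symm.injective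
      rw [TensorProduct.equivFinsuppOfBasisRight_symm_apply,
        TensorProduct.equivFinsuppOfBasisRight_symm_apply]
      exact hy
    rw [h3, Finsupp.mapRange_apply]
    exact dvd_mul_right _ _
  rw [hb, Finsupp.sum_zero_index]

/-- **Gauss decomposition**: every nonzero element of `A ⊗[K] K'` is `(π ⊗ 1)^n * y`
with `ε y ≠ 0`. -/
theorem exists_pow_mul_eps_ne_zero {π : v.toValuationSubring} (hπ : Irreducible π)
    {x : v.toValuationSubring ⊗[K] K'} (hx : x ≠ 0) :
    ∃ (n : ℕ) (y : v.toValuationSubring ⊗[K] K'), x = piT π ^ n * y ∧ epsHom hv y ≠ 0 := by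
  by_contra hcon
  have hcon : ∀ (n : ℕ) (y : v.toValuationSubring ⊗[K] K'), x = piT π ^ n * y →
      epsHom hv y = 0 := by
    intro n y hy
    by_contra h
    exact hcon ⟨n, y, hy, h⟩
  apply hx
  apply eq_zero_of_forall_piT_pow_dvd hπ
  intro n
  induction n with
  | zero => exact ⟨x, by rw [pow_zero, one_mul]⟩
  | succ n ih =>
    obtain ⟨y, hy⟩ := ih
    obtain ⟨z, hz⟩ := exists_eq_piT_mul_of_epsHom_eq_zero hv hπ (hcon n y hy)
    exact ⟨z, by rw [hy, hz, pow_succ, mul_assoc]⟩

end Eps

end Fermat.Agent.S29.H871
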