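import Fermat.Agent.S29.H871.DivBC
import Fermat.Agent.S24.Alg.Basic

/-!
# S29 / E3, part 8: injectivity of base change on `Pic0`

`G` acts semilinearly on `F'/K'`, fixing `F` pointwise, with `F'^G = F`.  Then
`Pic0 K F → Pic0 K' F'` is injective.

(helper871)
-/

set_option autoImplicit false
set_option linter.unusedSectionVars false

noncomputable section

namespace Fermat.Agent.S29.H871

open AlgebraicCurve TensorProduct IntermediateField
open Fermat.Agent.S24.H117 (mem_iff_ord_nonneg ord_pow ord_add_eq_of_lt place_ext_of_le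
  mem_of_ord_nonneg ord_nonneg_of_mem exists_ord_eq_one ord_div)

variable {K F K' F' : Type*} [Field K] [Field F] [Field K'] [Field F']
  [Algebra K F] [Algebra K' F'] [Algebra K K'] [Algebra F F'] [Algebra K F']
  [IsScalarTower K F F'] [IsScalarTower K K' F']

variable (K F) in
/-- A group acting semilinearly on `F'/K'`, fixing `F` pointwise, with fixed field `F`, such that
the elements of `K'` with finite orbit lie in `K`. -/
structure IsDescentAction {G : Type*} [Group G] (θ : G →* SemilinearAut K' F') : Prop where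
  fixes : ∀ (g : G) (f : F), θ g • algebraMap F F' f = algebraMap F F' f
  fixed : ∀ x : F', (∀ g : G, θ g • x = x) → x ∈ (algebraMap F F').range
  finite_orbit : ∀ c : K', (Set.range fun g : G => SemilinearAut.baseAut (θ g) c).Finite →
    c ∈ (algebraMap K K').range

section Action

variable {G : Type*} [Group G] {θ : G →* SemilinearAut K' F'} (hθ : IsDescentAction K F θ)

theorem ord_smul_eq (g : SemilinearAut K' F') (w : Place K' F') (x : F') :
    w.ord (g • x) = (g⁻¹ • w).ord x := by
  have h := SemilinearAut.ord_smul g⁻¹ w (g • x)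
  rw [inv_smul_smul] at h
  exact h.symm

theorem ord_smul_place (g : SemilinearAut K' F') (w : Place K' F') (x : F') :
    (g • w).ord x = w.ord (g⁻¹ • x) := by
  rw [ord_smul_eq, inv_inv]

variable [IsConstExt K F K' F'] [IsAlgClosed K] [CharZero K] [IsAlgClosed K']
variable {t : F} (ht : Transcendental K t) [FiniteDimensional K⟮t⟯ F]

include hθ in
theorem ord_smul_algebraMap (g : G) (w : Place K' F') (f : F) :
    (θ g • w).ord (algebraMap F F' f) = w.ord (algebraMap F F' f) := by
  have h := SemilinearAut.ord_smul (θ g) w (algebraMap F F' f)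
  rwa [hθ.fixes] at h

include hθ in
/-- Base-changed places are fixed by the descent action. -/
theorem smul_bcPlace (g : G) (v : Place K F) :
    θ g • bcPlace K' F' ht v = bcPlace K' F' ht v := by
  obtain ⟨π, hπ⟩ := IsDiscreteValuationRing.exists_irreducible v.toValuationSubring
  refine (placeBC_eq_of_le (isRationalPlace_all ht v) (θ g • bcPlace K' F' ht v) ?_ hπ ?_).symm
  · intro f hf
    rw [ord_smul_algebraMap hθ, ord_bcPlace]
    exact ord_nonneg_of_mem v hf
  · rw [ord_smul_algebraMap hθ, ord_bcPlace, v.ord_coe_irreducible hπ]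
    exact one_pos

include hθ in
theorem smul_bcDiv (g : G) (D : Divisor K F) :
    θ g • bcDiv K' F' ht D = bcDiv K' F' ht D := by
  induction D using Finsupp.induction with
  | zero => simp
  | single_add v n D _ _ ih =>
    rw [map_add, smul_add, ih, bcDiv_single, SemilinearAut.smul_single, smul_bcPlace hθ]

end Action

section Const

variable [IsAlgClosed K'] [CharZero K']

/-- An element of `F'` all of whose orders vanish is a nonzero constant. -/
theorem exists_const_of_forall_ord_eq_zero {t' : F'} (ht' : Transcendental K' t')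
    [FiniteDimensional K'⟮t'⟯ F'] {x : F'} (hx0 : x ≠ 0) (hx : ∀ w : Place K' F', w.ord x = 0) :
    ∃ c : K', c ≠ 0 ∧ x = algebraMap K' F' c := by
  obtain ⟨c, hc⟩ := mem_range_of_forall_ord_le (K := K') ht' (fun w => (hx w).le)
  refine ⟨c, ?_, hc.symm⟩
  rintro rfl
  rw [map_zero] at hc
  exact hx0 hc.symm

end Const

section InMax

variable (P : Place K' F')

/-- `a` lies in the maximal ideal of `P`. -/
def InMax (a : F') : Prop := a = 0 ∨ 0 < P.ord a

variable {P}

theorem InMax.add {a b : F'} (ha : InMax P a) (hb : InMax P b) : InMax P (a + b) := by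
  have ha' : a = 0 ∨ (0 + 1 : ℤ) ≤ P.ord a := ha.imp id (fun h => by omega)
  have hb' : b = 0 ∨ (0 + 1 : ℤ) ≤ P.ord b := hb.imp id (fun h => by omega)
  exact (Fermat.Agent.S24.le_ord_add P ha' hb').imp id (fun h => by omega)

theorem InMax.neg {a : F'} (ha : InMax P a) : InMax P (-a) := by
  rcases ha with h | h
  · left; rw [h, neg_zero]
  · right; rwa [Fermat.Agent.S24.ord_neg]

theorem InMax.sub {a b : F'} (ha : InMax P a) (hb : InMax P b) : InMax P (a - b) := by
  rw [sub_eq_add_neg]
  exact ha.add hb.neg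

theorem InMax.const_mul {a : F'} (c : K') (ha : InMax P a) : InMax P (algebraMap K' F' c * a) := by
  rcases ha with h | h
  · left; rw [h, mul_zero]
  · by_cases hc : c = 0
    · left; rw [hc, map_zero, zero_mul]
    · right
      have hcF : algebraMap K' F' c ≠ 0 := by simpa using hc
      have ha0 : a ≠ 0 := by
        rintro rfl
        rw [P.ord_zero] at h
        exact lt_irrefl _ h
      rw [P.ord_mul hcF ha0, Fermat.Agent.S24.FF.ord_algebraMap, zero_add]
      exact h

theorem InMax.const_eq_zero {c : K'} (h : InMax P (algebraMap K' F' c)) : c = 0 := by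
  rcases h with h | h
  · exact (algebraMap K' F').injective (by rw [h, map_zero])
  · rw [Fermat.Agent.S24.FF.ord_algebraMap] at h
    exact absurd h (lt_irrefl _)

theorem inMax_of_mem_nonunits {a : F'} (h : a ∈ P.toValuationSubring.nonunits) : InMax P a := by
  by_cases ha : a = 0
  · exact Or.inl ha
  · exact Or.inr ((Fermat.Agent.S24.FF.ord_pos_iff_mem_nonunits P ha).mpr h)

theorem InMax.smul {a : F'} (g : SemilinearAut K' F') (hg : g⁻¹ • P = P) (ha : InMax P a) :
    InMax P (g • a) := by
  rcases ha with h | h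
  · left; rw [h, smul_zero]
  · right; rw [ord_smul_eq, hg]; exact h

end InMax

section Inj

variable {G : Type*} [Group G] {θ : G →* SemilinearAut K' F'} (hθ : IsDescentAction K F θ)
variable [IsConstExt K F K' F'] [IsAlgClosed K] [CharZero K] [IsAlgClosed K'] [CharZero K']
variable {t : F} (ht : Transcendental K t) [FiniteDimensional K⟮t⟯ F]

include hθ in
/-- **Rigidity**: an element of `F'` whose divisor is `G`-invariant and which takes the value `1`
at a base-changed place is `G`-invariant. -/
theorem smul_eq_self_of_ord_invariant {z : F'} (hz0 : z ≠ 0)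
    (hz : ∀ (g : G) (w : Place K' F'), w.ord (θ g • z) = w.ord z)
    (v₀ : Place K F) (h1 : InMax (bcPlace K' F' ht v₀) (z - 1)) (g : G) : θ g • z = z := by
  have hfd := finiteDimensional_adjoin_algebraMap (K := K) (K' := K') (F' := F') t
  have ht' := transcendental_algebraMap (K' := K') (F' := F') ht
  set P := bcPlace K' F' ht v₀ with hP
  have hgz0 : θ g • z ≠ 0 := by
    rw [SemilinearAut.smul_def]
    simpa using hz0
  have hq : ∀ w : Place K' F', w.ord (θ g • z / z) = 0 := by
    intro w
    rw [ord_div w hgz0 hz0, hz]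
    ring
  obtain ⟨d, hd0, hd⟩ := exists_const_of_forall_ord_eq_zero ht' (div_ne_zero hgz0 hz0) hq
  have hgz : θ g • z = algebraMap K' F' d * z := by
    rw [← hd]; field_simp
  have hgP : (θ g)⁻¹ • P = P := by
    rw [hP, ← map_inv, smul_bcPlace hθ]
  have h2 : InMax P (θ g • z - 1) := by
    have := h1.smul (θ g) hgP
    rwa [smul_sub, smul_one] at this
  have h3 : InMax P (algebraMap K' F' d * (z - 1)) := h1.const_mul d
  have h4 : InMax P (algebraMap K' F' (d - 1)) := by
    have := h2.sub h3
    rw [hgz] at this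
    have heq : algebraMap K' F' d * z - 1 - algebraMap K' F' d * (z - 1)
        = algebraMap K' F' (d - 1) := by
      rw [map_sub, map_one]; ring
    rwa [heq] at this
  have hd1 : d = 1 := sub_eq_zero.mp h4.const_eq_zero
  rw [hgz, hd1, map_one, one_mul]

include hθ in
/-- If the base change of `D` is the divisor of `x ∈ F'`, then `x` is a constant multiple of an
element of `F`. -/
theorem exists_algebraMap_of_bcDiv_eq {D : Divisor K F} {x : F'} (hx0 : x ≠ 0)
    (hx : ∀ w : Place K' F', bcDiv K' F' ht D w = w.ord x) :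
    ∃ (c : K') (f : F), c ≠ 0 ∧ f ≠ 0 ∧ x = algebraMap K' F' c * algebraMap F F' f := by
  have hfd := finiteDimensional_adjoin_algebraMap (K := K) (K' := K') (F' := F') t
  have ht' := transcendental_algebraMap (K' := K') (F' := F') ht
  -- a base place and a uniformizer
  obtain ⟨v₀, _⟩ := exists_ord_pos (K := K) ht
  obtain ⟨π, hπ0, hπ⟩ := exists_ord_eq_one v₀
  set P := bcPlace K' F' ht v₀ with hP
  have hPπ : P.ord (algebraMap F F' π) = 1 := by rw [hP, ord_bcPlace, hπ]
  set n := P.ord x with hn
  have hpn0 : π ^ (-n) ≠ 0 := zpow_ne_zero _ hπ0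
  have hpn0' : algebraMap F F' (π ^ (-n)) ≠ 0 := fun h =>
    hpn0 ((algebraMap F F').injective (by rw [h, map_zero]))
  set y := x * algebraMap F F' (π ^ (-n)) with hy
  have hy0 : y ≠ 0 := mul_ne_zero hx0 hpn0'
  have hyord : P.ord y = 0 := by
    rw [hy, P.ord_mul hx0 hpn0', hP, ord_bcPlace, v₀.ord_zpow, hπ, ← hP]
    omega
  -- the value of `y` at `P`
  have hPrat : IsRationalPlace P := isRationalPlace_of_isAlgClosed P ht'
  obtain ⟨c, hc⟩ := hPrat y (mem_of_ord_nonneg P hyord.ge)
  have hyc : InMax P (y - algebraMap K' F' c) := inMax_of_mem_nonunits hc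
  have hc0 : c ≠ 0 := by
    rintro rfl
    rw [map_zero, sub_zero] at hyc
    rcases hyc with h | h
    · exact hy0 h
    · omega
  have hcF : algebraMap K' F' c⁻¹ ≠ 0 := by simpa using hc0
  set z := algebraMap K' F' c⁻¹ * y with hz
  have hz0 : z ≠ 0 := mul_ne_zero hcF hy0
  have hz1 : InMax P (z - 1) := by
    have := hyc.const_mul c⁻¹
    have heq : algebraMap K' F' c⁻¹ * (y - algebraMap K' F' c) = z - 1 := by
      rw [hz, mul_sub, ← map_mul, inv_mul_cancel₀ hc0, map_one]
    rwa [heq] at this
  have hzord : ∀ (g : G) (w : Place K' F'), w.ord (θ g • z) = w.ord z := by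
    intro g w
    rw [ord_smul_eq, hz, hy]
    rw [((θ g)⁻¹ • w).ord_mul hcF hy0, w.ord_mul hcF hy0,
      ((θ g)⁻¹ • w).ord_mul hx0 hpn0', w.ord_mul hx0 hpn0',
      Fermat.Agent.S24.FF.ord_algebraMap, Fermat.Agent.S24.FF.ord_algebraMap,
      ← map_inv, ord_smul_algebraMap hθ, ← hx, ← hx]
    have h1 : bcDiv K' F' ht D (θ g⁻¹ • w) = bcDiv K' F' ht D w := by
      have h := congrArg (fun E : Divisor K' F' => E w) (smul_bcDiv hθ ht g D)
      simp only [SemilinearAut.divisor_smul_apply] at h
      rwa [← map_inv] at h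
    rw [h1]
  have hfix : ∀ g : G, θ g • z = z := smul_eq_self_of_ord_invariant hθ ht hz0 hzord v₀ hz1
  obtain ⟨f₀, hf₀⟩ := hθ.fixed z hfix
  have hf₀0 : f₀ ≠ 0 := by
    rintro rfl
    rw [map_zero] at hf₀
    exact hz0 hf₀.symm
  refine ⟨c, f₀ * π ^ n, hc0, mul_ne_zero hf₀0 (zpow_ne_zero _ hπ0), ?_⟩
  have hcF' : algebraMap K' F' c ≠ 0 := by simpa using hc0
  have hπ' : algebraMap F F' π ≠ 0 := by simpa using hπ0
  rw [map_mul, hf₀, hz, hy, map_zpow₀, map_zpow₀, map_inv₀]
  field_simp
  rw [zpow_neg]
  field_simp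

include hθ in
/-- **Descent of principality**: if the base change of `D` is principal, so is `D`. -/
theorem mem_principal_of_bcDiv_mem_principal {D : Divisor K F}
    (hD : bcDiv K' F' ht D ∈ Divisor.principal (K := K') (F := F')) :
    D ∈ Divisor.principal (K := K) (F := F) := by
  obtain ⟨x, hx0, hx⟩ := hD
  obtain ⟨c, f, hc0, hf0, hxf⟩ := exists_algebraMap_of_bcDiv_eq hθ ht hx0 hx
  refine ⟨f, hf0, fun v => ?_⟩
  have hcF : algebraMap K' F' c ≠ 0 := by simpa using hc0
  have hfF : algebraMap F F' f ≠ 0 := by simpa using hf0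
  rw [← bcDiv_apply_bcPlace (K' := K') (F' := F') ht D v, hx, hxf,
    (bcPlace K' F' ht v).ord_mul hcF hfF, Fermat.Agent.S24.FF.ord_algebraMap, zero_add,
    ord_bcPlace]

include hθ in
/-- **E3 (a)**: base change is injective on `Pic0`. -/
theorem bcPic0_injective : Function.Injective (bcPic0 K' F' ht) := by
  rw [injective_iff_map_eq_zero]
  intro x hx
  obtain ⟨D, rfl⟩ := Pic0.mk_surjective x
  rw [bcPic0_mk] at hx
  have h1 : bcDegZero K' F' ht D ∈ (Divisor.principal (K := K') (F := F')).addSubgroupOf
      (Divisor.degZero (K := K') (F := F')) := (QuotientAddGroup.eq_zero_iff _).mp hx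
  rw [AddSubgroup.mem_addSubgroupOf, coe_bcDegZero] at h1
  have h2 := mem_principal_of_bcDiv_mem_principal hθ ht h1
  exact (QuotientAddGroup.eq_zero_iff _).mpr (AddSubgroup.mem_addSubgroupOf.mpr h2)

end Inj

end Fermat.Agent.S29.H871
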