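import Fermat.Agent.S29.H871.Gauss

/-!
# S29 / E3 (descent `ℂ → ℚ̄`), part 2: base change of a rational place

Setting (`IsConstExt K F K' F'`): `F' ⊇ F`, `K' ⊇ K`, the multiplication map
`F ⊗[K] K' → F'` is injective and `F'` is its field of fractions.

For a rational place `v` of `F/K` we construct the place `placeBC v` of `F'/K'` whose valuation
ring is the localisation of `O_v ⊗[K] K'` at the prime `(π ⊗ 1)`.

(helper871)
-/

set_option autoImplicit false
set_option linter.unusedSectionVars false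

noncomputable section

namespace Fermat.Agent.S29.H871

open AlgebraicCurve TensorProduct

variable (K F K' F' : Type*) [Field K] [Field F] [Field K'] [Field F']
  [Algebra K F] [Algebra K' F'] [Algebra K K'] [Algebra F F'] [Algebra K F']
  [IsScalarTower K F F'] [IsScalarTower K K' F']

/-- The multiplication map `F ⊗[K] K' → F'`. -/
def mulMapF : F ⊗[K] K' →ₐ[K] F' :=
  Algebra.TensorProduct.productMap (IsScalarTower.toAlgHom K F F')
    (IsScalarTower.toAlgHom K K' F')

/-- `F'` is the constant field extension of `F` from `K` to `K'`: `F` and `K'` are linearly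
disjoint over `K` inside `F'`, and they generate `F'` as a field. -/
class IsConstExt : Prop where
  inj : Function.Injective (mulMapF K F K' F')
  gen : ∀ z : F', ∃ x y : F ⊗[K] K', mulMapF K F K' F' y ≠ 0 ∧
    z * mulMapF K F K' F' y = mulMapF K F K' F' x

variable {K F K' F'}

@[simp]
theorem mulMapF_tmul (f : F) (c : K') :
    mulMapF K F K' F' (f ⊗ₜ[K] c) = algebraMap F F' f * algebraMap K' F' c := by
  simp [mulMapF]

section MuA

variable (K' F') (v : Place K F)

/-- The multiplication map `O_v ⊗[K] K' → F'`. -/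
def muA : v.toValuationSubring ⊗[K] K' →ₐ[K] F' :=
  Algebra.TensorProduct.productMap
    ((IsScalarTower.toAlgHom K F F').comp (IsScalarTower.toAlgHom K v.toValuationSubring F))
    (IsScalarTower.toAlgHom K K' F')

variable {K' F' v}

@[simp]
theorem muA_tmul (a : v.toValuationSubring) (c : K') :
    muA K' F' v (a ⊗ₜ[K] c) = algebraMap F F' (a : F) * algebraMap K' F' c := by
  simp [muA]

theorem muA_piT (π : v.toValuationSubring) :
    muA K' F' v (piT π) = algebraMap F F' (π : F) := by
  rw [piT, muA_tmul, map_one, mul_one]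

theorem muA_eq_mulMapF_comp (x : v.toValuationSubring ⊗[K] K') :
    muA K' F' v x = mulMapF K F K' F'
      (LinearMap.rTensor K' (IsScalarTower.toAlgHom K v.toValuationSubring F).toLinearMap x) := by
  induction x using TensorProduct.induction_on with
  | zero => simp
  | tmul a c =>
    rw [muA_tmul, LinearMap.rTensor_tmul, mulMapF_tmul]
    rfl
  | add x y hx hy => rw [map_add, map_add, map_add, hx, hy]

/-- Clearing denominators in `F`. -/
theorem exists_mul_pow_mem {π : v.toValuationSubring} (hπ : Irreducible π) (f : F) :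
    ∃ (n : ℕ) (a : v.toValuationSubring), f * (π : F) ^ n = (a : F) := by
  by_cases hf : f ∈ v.toValuationSubring
  · exact ⟨0, ⟨f, hf⟩, by simp⟩
  · have hf0 : f ≠ 0 := fun h => hf (h ▸ zero_mem _)
    have hinv : f⁻¹ ∈ v.toValuationSubring :=
      (v.toValuationSubring.mem_or_inv_mem f).resolve_left hf
    have hinv0 : (⟨f⁻¹, hinv⟩ : v.toValuationSubring) ≠ 0 := by
      intro h
      exact inv_ne_zero hf0 (congrArg Subtype.val h)
    obtain ⟨n, u, hu⟩ := IsDiscreteValuationRing.eq_unit_mul_pow_irreducible hinv0 hπ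
    refine ⟨n, ((u⁻¹ : (v.toValuationSubring)ˣ) : v.toValuationSubring), ?_⟩
    have h1 : f⁻¹ = ((u : v.toValuationSubring) : F) * (π : F) ^ n := by
      have := congrArg Subtype.val hu
      simpa using this
    have h2 : ((u : v.toValuationSubring) : F) * (((u⁻¹ : (v.toValuationSubring)ˣ) :
        v.toValuationSubring) : F) = 1 := by
      have h := congrArg (fun t : v.toValuationSubring => (t : F)) (Units.mul_inv u)
      exact h
    have hπ0 : (π : F) ≠ 0 := by
      intro h
      exact hπ.ne_zero (Subtype.ext h)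
    have hu0 : ((u : v.toValuationSubring) : F) ≠ 0 := by
      intro h
      rw [h, zero_mul] at h2
      exact zero_ne_one h2
    have h3 : f = (((u : v.toValuationSubring) : F) * (π : F) ^ n)⁻¹ := by
      rw [← h1, inv_inv]
    rw [h3]
    field_simp
    exact h2.symm

/-- Clearing denominators in `F ⊗[K] K'`. -/
theorem exists_mulMapF_mul_pow_eq {π : v.toValuationSubring} (hπ : Irreducible π)
    (x : F ⊗[K] K') :
    ∃ (n : ℕ) (x' : v.toValuationSubring ⊗[K] K'),
      mulMapF K F K' F' x * (algebraMap F F' (π : F)) ^ n = muA K' F' v x' := by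
  induction x using TensorProduct.induction_on with
  | zero => exact ⟨0, 0, by simp⟩
  | tmul f c =>
    obtain ⟨n, a, ha⟩ := exists_mul_pow_mem hπ f
    refine ⟨n, a ⊗ₜ[K] c, ?_⟩
    rw [mulMapF_tmul, muA_tmul, ← ha, map_mul, map_pow]
    ring
  | add x y hx hy =>
    obtain ⟨n, x', hx'⟩ := hx
    obtain ⟨m, y', hy'⟩ := hy
    refine ⟨n + m, x' * piT π ^ m + y' * piT π ^ n, ?_⟩
    rw [map_add, map_add, map_mul, map_mul, map_pow, map_pow, muA_piT, ← hx', ← hy']
    ring

variable [IsConstExt K F K' F']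

theorem muA_injective : Function.Injective (muA K' F' v) := by
  have h1 : Function.Injective
      (LinearMap.rTensor K' (IsScalarTower.toAlgHom K v.toValuationSubring F).toLinearMap) := by
    apply Module.Flat.rTensor_preserves_injective_linearMap
    intro a b hab
    exact Subtype.ext hab
  intro x y hxy
  rw [muA_eq_mulMapF_comp, muA_eq_mulMapF_comp] at hxy
  exact h1 (IsConstExt.inj hxy)

theorem muA_ne_zero {x : v.toValuationSubring ⊗[K] K'} (hx : x ≠ 0) : muA K' F' v x ≠ 0 := by
  intro h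
  exact hx (muA_injective (by rw [h, map_zero]))

theorem algebraMap_pi_ne_zero {π : v.toValuationSubring} (hπ : Irreducible π) :
    algebraMap F F' (π : F) ≠ 0 := by
  intro h
  have : (π : F) = 0 := (algebraMap F F').injective (by rw [h, map_zero])
  exact hπ.ne_zero (Subtype.ext this)

/-- Every nonzero element of `F'` is a quotient of two nonzero elements of `O_v ⊗[K] K'`. -/
theorem exists_muA_quotient {π : v.toValuationSubring} (hπ : Irreducible π) {z : F'}
    (hz : z ≠ 0) :
    ∃ x y : v.toValuationSubring ⊗[K] K', x ≠ 0 ∧ y ≠ 0 ∧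
      z * muA K' F' v y = muA K' F' v x := by
  obtain ⟨x, y, hy, hxy⟩ := IsConstExt.gen (K := K) (F := F) (K' := K') z
  obtain ⟨n, x', hx'⟩ := exists_mulMapF_mul_pow_eq (K' := K') (F' := F') hπ x
  obtain ⟨m, y', hy'⟩ := exists_mulMapF_mul_pow_eq (K' := K') (F' := F') hπ y
  have hπ0 := algebraMap_pi_ne_zero (F' := F') hπ
  have hy'0 : muA K' F' v y' ≠ 0 := by
    rw [← hy']
    exact mul_ne_zero hy (pow_ne_zero _ hπ0)
  have key : z * muA K' F' v (y' * piT π ^ n) = muA K' F' v (x' * piT π ^ m) := by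
    rw [map_mul, map_mul, map_pow, map_pow, muA_piT, ← hx', ← hy', ← hxy]
    ring
  have hyn : muA K' F' v (y' * piT π ^ n) ≠ 0 := by
    rw [map_mul, map_pow, muA_piT]
    exact mul_ne_zero hy'0 (pow_ne_zero _ hπ0)
  refine ⟨x' * piT π ^ m, y' * piT π ^ n, ?_, ?_, key⟩
  · intro h
    rw [h, map_zero] at key
    exact mul_ne_zero hz hyn key
  · intro h
    rw [h, map_zero] at hyn
    exact hyn rfl

end MuA

section VS

variable (K' F') {v : Place K F} (hv : IsRationalPlace v) [IsConstExt K F K' F']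

/-- Membership predicate of the extended valuation ring: `z = μ(x)/μ(s)` with `ε(s) ≠ 0`. -/
def IsIntegralBC (z : F') : Prop :=
  ∃ x s : v.toValuationSubring ⊗[K] K', epsHom hv s ≠ 0 ∧ z * muA K' F' v s = muA K' F' v x

variable {K' F'}

theorem eps_ne_zero_ne_zero {s : v.toValuationSubring ⊗[K] K'} (hs : epsHom hv s ≠ 0) :
    s ≠ 0 := by
  intro h
  rw [h, map_zero] at hs
  exact hs rfl

theorem IsIntegralBC.mul {z w : F'} (hz : IsIntegralBC K' F' hv z) (hw : IsIntegralBC K' F' hv w) :
    IsIntegralBC K' F' hv (z * w) := by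
  obtain ⟨x, s, hs, hx⟩ := hz
  obtain ⟨y, t, ht, hy⟩ := hw
  refine ⟨x * y, s * t, ?_, ?_⟩
  · rw [map_mul]
    exact mul_ne_zero hs ht
  · rw [map_mul, map_mul, ← hx, ← hy]
    ring

theorem IsIntegralBC.add {z w : F'} (hz : IsIntegralBC K' F' hv z) (hw : IsIntegralBC K' F' hv w) :
    IsIntegralBC K' F' hv (z + w) := by
  obtain ⟨x, s, hs, hx⟩ := hz
  obtain ⟨y, t, ht, hy⟩ := hw
  refine ⟨x * t + y * s, s * t, ?_, ?_⟩
  · rw [map_mul]
    exact mul_ne_zero hs ht
  · rw [map_add, map_mul, map_mul, map_mul, ← hx, ← hy]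
    ring

theorem IsIntegralBC.neg {z : F'} (hz : IsIntegralBC K' F' hv z) :
    IsIntegralBC K' F' hv (-z) := by
  obtain ⟨x, s, hs, hx⟩ := hz
  refine ⟨-x, s, hs, ?_⟩
  rw [map_neg, ← hx]
  ring

theorem isIntegralBC_muA (x : v.toValuationSubring ⊗[K] K') :
    IsIntegralBC K' F' hv (muA K' F' v x) :=
  ⟨x, 1, by rw [map_one]; exact one_ne_zero, by rw [map_one, mul_one]⟩

theorem isIntegralBC_zero : IsIntegralBC K' F' hv (0 : F') := by
  have := isIntegralBC_muA (K' := K') (F' := F') hv 0
  rwa [map_zero] at this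

theorem isIntegralBC_one : IsIntegralBC K' F' hv (1 : F') := by
  have := isIntegralBC_muA (K' := K') (F' := F') hv 1
  rwa [map_one] at this

theorem isIntegralBC_algebraMap (c : K') : IsIntegralBC K' F' hv (algebraMap K' F' c) := by
  have := isIntegralBC_muA (K' := K') (F' := F') hv ((1 : v.toValuationSubring) ⊗ₜ[K] c)
  rw [muA_tmul] at this
  simpa using this

theorem isIntegralBC_algebraMap_of_mem {f : F} (hf : f ∈ v.toValuationSubring) :
    IsIntegralBC K' F' hv (algebraMap F F' f) := by
  have := isIntegralBC_muA (K' := K') (F' := F') hv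
    ((⟨f, hf⟩ : v.toValuationSubring) ⊗ₜ[K] (1 : K'))
  rw [muA_tmul] at this
  simpa using this

/-- Elements `μ(x)/μ(s)` with `ε x ≠ 0`, `ε s ≠ 0` are units of the extended valuation ring. -/
theorem isIntegralBC_inv_of_eps_ne_zero {z : F'} {x s : v.toValuationSubring ⊗[K] K'}
    (hx : epsHom hv x ≠ 0) (hs : epsHom hv s ≠ 0)
    (h : z * muA K' F' v s = muA K' F' v x) : IsIntegralBC K' F' hv z⁻¹ := by
  refine ⟨s, x, hx, ?_⟩
  have hx0 := muA_ne_zero (K' := K') (F' := F') (eps_ne_zero_ne_zero hv hx)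
  have hs0 := muA_ne_zero (K' := K') (F' := F') (eps_ne_zero_ne_zero hv hs)
  have hz0 : z ≠ 0 := by
    intro hz
    rw [hz, zero_mul] at h
    exact hx0 h.symm
  rw [← h]
  field_simp

/-- **Decomposition**: every nonzero `z : F'` is `u * π^n` (`n : ℤ`) with `u` and `u⁻¹`
integral. -/
theorem exists_unit_mul_zpow_BC {π : v.toValuationSubring} (hπ : Irreducible π) {z : F'}
    (hz : z ≠ 0) :
    ∃ (u : F') (n : ℤ), IsIntegralBC K' F' hv u ∧ IsIntegralBC K' F' hv u⁻¹ ∧
      z = u * (algebraMap F F' (π : F)) ^ n := by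
  obtain ⟨x, y, hx0, hy0, hxy⟩ := exists_muA_quotient (K' := K') (F' := F') hπ hz
  obtain ⟨m, x', hx', hex⟩ := exists_pow_mul_eps_ne_zero hv hπ hx0
  obtain ⟨n, y', hy', hey⟩ := exists_pow_mul_eps_ne_zero hv hπ hy0
  have hπ0 := algebraMap_pi_ne_zero (F' := F') hπ
  have hx'0 := muA_ne_zero (K' := K') (F' := F') (eps_ne_zero_ne_zero hv hex)
  have hy'0 := muA_ne_zero (K' := K') (F' := F') (eps_ne_zero_ne_zero hv hey)
  set u : F' := muA K' F' v x' / muA K' F' v y' with hu
  have hu1 : u * muA K' F' v y' = muA K' F' v x' := by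
    rw [hu]
    field_simp
  have hu2 : u⁻¹ * muA K' F' v x' = muA K' F' v y' := by
    rw [hu]
    field_simp
  refine ⟨u, (m : ℤ) - n, ⟨x', y', hey, hu1⟩, ⟨y', x', hex, hu2⟩, ?_⟩
  rw [hx', hy', map_mul, map_mul, map_pow, map_pow, muA_piT] at hxy
  rw [zpow_sub₀ hπ0, zpow_natCast, zpow_natCast, hu]
  field_simp
  field_simp at hxy
  linear_combination hxy

theorem not_isIntegralBC_inv_pi {π : v.toValuationSubring} (hπ : Irreducible π) (n : ℕ) :
    ¬ IsIntegralBC K' F' hv ((algebraMap F F' (π : F)) ^ (n + 1))⁻¹ := by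
  rintro ⟨x, s, hs, h⟩
  have hπ0 := algebraMap_pi_ne_zero (F' := F') hπ
  have h1 : muA K' F' v s = muA K' F' v (piT π * (piT π ^ n * x)) := by
    rw [map_mul, map_mul, map_pow, muA_piT, ← h]
    field_simp
    ring
  have h2 := muA_injective (K' := K') (F' := F') h1
  apply hs
  rw [h2, map_mul, epsHom_piT hv hπ, zero_mul]

theorem isIntegralBC_pi_pow (π : v.toValuationSubring) (n : ℕ) :
    IsIntegralBC K' F' hv ((algebraMap F F' (π : F)) ^ n) := by
  have := isIntegralBC_muA (K' := K') (F' := F') hv (piT π ^ n)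
  rwa [map_pow, muA_piT] at this

/-- Decomposition of integral elements with a natural exponent. -/
theorem exists_unit_mul_pow_BC {π : v.toValuationSubring} (hπ : Irreducible π) {z : F'}
    (hz : IsIntegralBC K' F' hv z) (hz0 : z ≠ 0) :
    ∃ (u : F') (n : ℕ), IsIntegralBC K' F' hv u ∧ IsIntegralBC K' F' hv u⁻¹ ∧
      z = u * (algebraMap F F' (π : F)) ^ n := by
  obtain ⟨u, k, hu, hu', hzk⟩ := exists_unit_mul_zpow_BC (K' := K') (F' := F') hv hπ hz0
  have hπ0 := algebraMap_pi_ne_zero (F' := F') hπ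
  have hu0 : u ≠ 0 := by
    intro h
    rw [h, zero_mul] at hzk
    exact hz0 hzk
  rcases le_or_gt 0 k with hk | hk
  · obtain ⟨n, rfl⟩ := Int.eq_ofNat_of_zero_le hk
    exact ⟨u, n, hu, hu', by rw [hzk, zpow_natCast]⟩
  · exfalso
    obtain ⟨j, hj⟩ : ∃ j : ℕ, k = -((j : ℤ) + 1) := ⟨(-k - 1).toNat, by omega⟩
    apply not_isIntegralBC_inv_pi (K' := K') (F' := F') hv hπ j
    have : ((algebraMap F F' (π : F)) ^ (j + 1))⁻¹ = u⁻¹ * z := by
      rw [hzk, hj, zpow_neg, ← Nat.cast_succ, zpow_natCast]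
      field_simp
    rw [this]
    exact hu'.mul hv hz

variable (K' F')

/-- The valuation ring of the base change of a rational place. -/
def valuationSubringBC : ValuationSubring F' where
  carrier := {z | IsIntegralBC K' F' hv z}
  mul_mem' := fun hz hw => IsIntegralBC.mul hv hz hw
  one_mem' := isIntegralBC_one hv
  add_mem' := fun hz hw => IsIntegralBC.add hv hz hw
  zero_mem' := isIntegralBC_zero hv
  neg_mem' := fun hz => IsIntegralBC.neg hv hz
  mem_or_inv_mem' := by
    intro z
    by_cases hz : z = 0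
    · left
      rw [hz]
      exact isIntegralBC_zero hv
    obtain ⟨π, hπ⟩ := IsDiscreteValuationRing.exists_irreducible v.toValuationSubring
    obtain ⟨u, k, hu, hu', hzk⟩ := exists_unit_mul_zpow_BC (K' := K') (F' := F') hv hπ hz
    rcases le_total 0 k with hk | hk
    · left
      obtain ⟨n, rfl⟩ := Int.eq_ofNat_of_zero_le hk
      show IsIntegralBC K' F' hv z
      rw [hzk, zpow_natCast]
      exact hu.mul hv (isIntegralBC_pi_pow hv π n)
    · right
      obtain ⟨n, hn⟩ : ∃ n : ℕ, k = -(n : ℤ) := ⟨(-k).toNat, by omega⟩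
      show IsIntegralBC K' F' hv z⁻¹
      have : z⁻¹ = u⁻¹ * (algebraMap F F' (π : F)) ^ n := by
        rw [hzk, hn, zpow_neg, zpow_natCast, mul_inv, inv_inv]
      rw [this]
      exact hu'.mul hv (isIntegralBC_pi_pow hv π n)

variable {K' F'}

theorem mem_valuationSubringBC_iff {z : F'} :
    z ∈ valuationSubringBC K' F' hv ↔ IsIntegralBC K' F' hv z := Iff.rfl

theorem isUnit_of_isIntegralBC_inv {z : valuationSubringBC K' F' hv} (hz0 : (z : F') ≠ 0)
    (hz : IsIntegralBC K' F' hv (z : F')⁻¹) : IsUnit z := by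
  rw [isUnit_iff_exists_inv]
  exact ⟨⟨(z : F')⁻¹, hz⟩, Subtype.ext (mul_inv_cancel₀ hz0)⟩

theorem isIntegralBC_inv_of_isUnit {z : valuationSubringBC K' F' hv} (hz : IsUnit z) :
    IsIntegralBC K' F' hv (z : F')⁻¹ := by
  obtain ⟨w, hw⟩ := isUnit_iff_exists_inv.mp hz
  have h1 : (z : F') * (w : F') = 1 := congrArg Subtype.val hw
  have h2 : (z : F')⁻¹ = (w : F') := inv_eq_of_mul_eq_one_right h1
  rw [h2]
  exact w.2

/-- The uniformizer `π` as an element of the extended valuation ring. -/
def piBC (π : v.toValuationSubring) : valuationSubringBC K' F' hv :=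
  ⟨algebraMap F F' (π : F), isIntegralBC_algebraMap_of_mem hv π.2⟩

theorem not_isUnit_piBC {π : v.toValuationSubring} (hπ : Irreducible π) :
    ¬ IsUnit (piBC (K' := K') (F' := F') hv π) := by
  intro h
  have h1 := isIntegralBC_inv_of_isUnit hv h
  apply not_isIntegralBC_inv_pi (K' := K') (F' := F') hv hπ 0
  simpa [piBC] using h1

theorem associated_piBC_pow {π : v.toValuationSubring} (hπ : Irreducible π)
    {z : valuationSubringBC K' F' hv} (hz : z ≠ 0) :
    ∃ n : ℕ, Associated (piBC (K' := K') (F' := F') hv π ^ n) z := by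
  have hz0 : (z : F') ≠ 0 := fun h => hz (Subtype.ext h)
  obtain ⟨u, n, hu, hu', hzn⟩ := exists_unit_mul_pow_BC (K' := K') (F' := F') hv hπ z.2 hz0
  have hu0 : u ≠ 0 := by
    intro h
    rw [h, zero_mul] at hzn
    exact hz0 hzn
  have hunit : IsUnit (⟨u, hu⟩ : valuationSubringBC K' F' hv) :=
    isUnit_of_isIntegralBC_inv hv hu0 hu'
  refine ⟨n, ?_⟩
  obtain ⟨w, hw⟩ := hunit
  refine ⟨w, Subtype.ext ?_⟩
  show ((piBC (K' := K') (F' := F') hv π ^ n * (w : valuationSubringBC K' F' hv) :
    valuationSubringBC K' F' hv) : F') = z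
  rw [hw]
  push_cast
  rw [hzn]
  simp [piBC, mul_comm]

theorem irreducible_piBC {π : v.toValuationSubring} (hπ : Irreducible π) :
    Irreducible (piBC (K' := K') (F' := F') hv π) := by
  have hπ0 := algebraMap_pi_ne_zero (F' := F') hπ
  rw [irreducible_iff]
  refine ⟨not_isUnit_piBC hv hπ, ?_⟩
  intro a b hab
  have hab' : algebraMap F F' (π : F) = (a : F') * (b : F') := congrArg Subtype.val hab
  have ha0 : (a : F') ≠ 0 := by
    intro h
    rw [h, zero_mul] at hab'
    exact hπ0 hab'
  have hb0 : (b : F') ≠ 0 := by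
    intro h
    rw [h, mul_zero] at hab'
    exact hπ0 hab'
  obtain ⟨u, m, hu, hu', ham⟩ := exists_unit_mul_pow_BC (K' := K') (F' := F') hv hπ a.2 ha0
  obtain ⟨w, n, hw, hw', hbn⟩ := exists_unit_mul_pow_BC (K' := K') (F' := F') hv hπ b.2 hb0
  have hu0 : u ≠ 0 := by
    intro h
    rw [h, zero_mul] at ham
    exact ha0 ham
  have hw0 : w ≠ 0 := by
    intro h
    rw [h, zero_mul] at hbn
    exact hb0 hbn
  rcases Nat.eq_zero_or_pos m with hm | hm
  · left
    apply isUnit_of_isIntegralBC_inv hv ha0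
    rw [ham, hm, pow_zero, mul_one]
    exact hu'
  rcases Nat.eq_zero_or_pos n with hn | hn
  · right
    apply isUnit_of_isIntegralBC_inv hv hb0
    rw [hbn, hn, pow_zero, mul_one]
    exact hw'
  exfalso
  obtain ⟨j, hj⟩ : ∃ j : ℕ, m + n = j + 2 := ⟨m + n - 2, by omega⟩
  apply not_isIntegralBC_inv_pi (K' := K') (F' := F') hv hπ j
  have : ((algebraMap F F' (π : F)) ^ (j + 1))⁻¹ = u * w := by
    rw [ham, hbn] at hab'
    have h3 : (algebraMap F F' (π : F)) ^ (j + 1) * (u * w) = 1 := by
      have h4 : algebraMap F F' (π : F) * ((algebraMap F F' (π : F)) ^ (j + 1) * (u * w))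
          = algebraMap F F' (π : F) * 1 := by
        rw [mul_one]
        conv_rhs => rw [hab']
        rw [show u * (algebraMap F F') ↑π ^ m * (w * (algebraMap F F') ↑π ^ n)
          = u * w * (algebraMap F F') ↑π ^ (m + n) by rw [pow_add]; ring, hj]
        ring
      exact mul_left_cancel₀ hπ0 h4
    exact inv_eq_of_mul_eq_one_right h3
  rw [this]
  exact hu.mul hv hw

variable (K' F')

/-- **Base change of a rational place** along a constant field extension. -/
def placeBC : Place K' F' where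
  toValuationSubring := valuationSubringBC K' F' hv
  algebraMap_mem' := fun c => isIntegralBC_algebraMap hv c
  ne_top' := by
    intro h
    obtain ⟨π, hπ⟩ := IsDiscreteValuationRing.exists_irreducible v.toValuationSubring
    apply not_isIntegralBC_inv_pi (K' := K') (F' := F') hv hπ 0
    have : ((algebraMap F F' (π : F)) ^ (0 + 1))⁻¹ ∈ valuationSubringBC K' F' hv := by
      rw [h]
      exact ValuationSubring.mem_top _
    exact this
  isPrincipalIdealRing' := by
    obtain ⟨π, hπ⟩ := IsDiscreteValuationRing.exists_irreducible v.toValuationSubring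
    have hfact : IsDiscreteValuationRing.HasUnitMulPowIrreducibleFactorization
        (valuationSubringBC K' F' hv) :=
      ⟨piBC hv π, irreducible_piBC hv hπ, fun hx => associated_piBC_pow hv hπ hx⟩
    have := IsDiscreteValuationRing.ofHasUnitMulPowIrreducibleFactorization hfact
    infer_instance

variable {K' F'}

@[simp]
theorem placeBC_toValuationSubring :
    (placeBC K' F' hv).toValuationSubring = valuationSubringBC K' F' hv := rfl

end VS

end Fermat.Agent.S29.H871
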