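import Fermat.Agent.S29.H871.PlaceBC

/-!
# S29 / E3, part 3: orders at the base-changed place, uniqueness, injectivity

(helper871)
-/

set_option autoImplicit false
set_option linter.unusedSectionVars false

noncomputable section

namespace Fermat.Agent.S29.H871

open AlgebraicCurve TensorProduct

variable {K F K' F' : Type*} [Field K] [Field F] [Field K'] [Field F']
  [Algebra K F] [Algebra K' F'] [Algebra K K'] [Algebra F F'] [Algebra K F']
  [IsScalarTower K F F'] [IsScalarTower K K' F'] [IsConstExt K F K' F']

variable {v : Place K F} (hv : IsRationalPlace v)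

/-- The order at `placeBC` of `u * π^n`, `u` a unit of the extended valuation ring. -/
theorem ord_placeBC_unit_mul_zpow {π : v.toValuationSubring} (hπ : Irreducible π) {u : F'}
    (hu : IsIntegralBC K' F' hv u) (hu' : IsIntegralBC K' F' hv u⁻¹) (hu0 : u ≠ 0) (n : ℤ) :
    (placeBC K' F' hv).ord (u * (algebraMap F F' (π : F)) ^ n) = n := by
  have hunit : IsUnit (⟨u, hu⟩ : valuationSubringBC K' F' hv) :=
    isUnit_of_isIntegralBC_inv hv hu0 hu'
  obtain ⟨U, hU⟩ := hunit
  have h := (placeBC K' F' hv).ord_unit_smul_zpow U (irreducible_piBC hv hπ) n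
  have hU' : ((U : valuationSubringBC K' F' hv) : F') = u := congrArg Subtype.val hU
  rw [← hU']
  exact h

theorem ord_placeBC_algebraMap (f : F) :
    (placeBC K' F' hv).ord (algebraMap F F' f) = v.ord f := by
  rcases eq_or_ne f 0 with rfl | hf
  · simp
  obtain ⟨π, hπ⟩ := IsDiscreteValuationRing.exists_irreducible v.toValuationSubring
  obtain ⟨u, hu⟩ := v.exists_unit_mul_zpow hf hπ
  have h1 : algebraMap F F' f = algebraMap F F' ((u : v.toValuationSubring) : F) *
      (algebraMap F F' (π : F)) ^ (v.ord f) := by
    conv_lhs => rw [hu]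
    rw [map_mul, map_zpow₀]
  have hu1 : IsIntegralBC K' F' hv (algebraMap F F' ((u : v.toValuationSubring) : F)) :=
    isIntegralBC_algebraMap_of_mem hv (u : v.toValuationSubring).2
  have hu2 : IsIntegralBC K' F' hv (algebraMap F F' ((u : v.toValuationSubring) : F))⁻¹ := by
    have h2 : (algebraMap F F' ((u : v.toValuationSubring) : F))⁻¹
        = algebraMap F F' (((u⁻¹ : (v.toValuationSubring)ˣ) : v.toValuationSubring) : F) := by
      rw [← map_inv₀]
      congr 1
      have h := congrArg (fun t : v.toValuationSubring => (t : F)) (Units.mul_inv u)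
      exact inv_eq_of_mul_eq_one_right h
    rw [h2]
    exact isIntegralBC_algebraMap_of_mem hv ((u⁻¹ : (v.toValuationSubring)ˣ) :
      v.toValuationSubring).2
  have hu0 : algebraMap F F' ((u : v.toValuationSubring) : F) ≠ 0 := by
    intro h
    have h3 : ((u : v.toValuationSubring) : F) = 0 :=
      (algebraMap F F').injective (by rw [h, map_zero])
    exact u.ne_zero (Subtype.ext h3)
  rw [h1]
  exact ord_placeBC_unit_mul_zpow hv hπ hu1 hu2 hu0 _

theorem ord_placeBC_const {c : K'} :
    (placeBC K' F' hv).ord (algebraMap K' F' c) = 0 :=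
  Fermat.Agent.S24.FF.ord_algebraMap _ c

/-- `placeBC` is injective (as a function of the place). -/
theorem placeBC_injective {v w : Place K F} (hv : IsRationalPlace v) (hw : IsRationalPlace w)
    (h : placeBC K' F' hv = placeBC K' F' hw) : v = w := by
  apply Fermat.Agent.S24.H117.place_ext_of_le
  intro f hf
  rw [← ord_placeBC_algebraMap (K' := K') (F' := F') hw, ← h,
    ord_placeBC_algebraMap (K' := K') (F' := F') hv]
  exact hf

end Fermat.Agent.S29.H871
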