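import Fermat.Agent.S29.H871.PlaceOrd

/-!
# S29 / E3, part 4: restriction of a place of `F'/K'` to `F`, and the dichotomy

A place `w` of `F'/K'` is either trivial on `F` (all orders of elements of `F` vanish) or it is
the base change `placeBC` of its restriction to `F`.

(helper871)
-/

set_option autoImplicit false
set_option linter.unusedSectionVars false

noncomputable section

namespace Fermat.Agent.S29.H871

open AlgebraicCurve TensorProduct
open Fermat.Agent.S24.H117 (mem_iff_ord_nonneg ord_pow)

variable {K F K' F' : Type*} [Field K] [Field F] [Field K'] [Field F']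
  [Algebra K F] [Algebra K' F'] [Algebra K K'] [Algebra F F'] [Algebra K F']
  [IsScalarTower K F F'] [IsScalarTower K K' F']

section Rord

variable (w : Place K' F')

/-- The order at `w` of an element of `F`. -/
def rord (f : F) : ℤ := w.ord (algebraMap F F' f)

theorem rord_zero : rord w (0 : F) = 0 := by simp [rord]

theorem rord_one : rord w (1 : F) = 0 := by simp [rord]

theorem rord_mul {f g : F} (hf : f ≠ 0) (hg : g ≠ 0) : rord w (f * g) = rord w f + rord w g := by
  unfold rord
  rw [map_mul, w.ord_mul (by simpa using hf) (by simpa using hg)]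

theorem rord_inv (f : F) : rord w f⁻¹ = -rord w f := by
  unfold rord
  rw [map_inv₀, w.ord_inv]

theorem rord_pow (f : F) (n : ℕ) : rord w (f ^ n) = n * rord w f := by
  unfold rord
  rw [map_pow, ord_pow]

theorem rord_zpow (f : F) (n : ℤ) : rord w (f ^ n) = n * rord w f := by
  unfold rord
  rw [map_zpow₀, w.ord_zpow]

/-- The restriction of the valuation ring of `w` to `F`. -/
def restrictRing : ValuationSubring F := w.toValuationSubring.comap (algebraMap F F')

theorem mem_restrictRing {f : F} : f ∈ restrictRing (F := F) w ↔ 0 ≤ rord w f := by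
  unfold restrictRing rord
  rw [ValuationSubring.mem_comap]
  exact mem_iff_ord_nonneg w

theorem coe_ne_zero_restrictRing {a : restrictRing (F := F) w} (ha : a ≠ 0) : (a : F) ≠ 0 :=
  fun h => ha (Subtype.ext h)

theorem isUnit_restrictRing_iff {a : restrictRing (F := F) w} (ha : a ≠ 0) :
    IsUnit a ↔ rord w (a : F) = 0 := by
  have ha0 : (a : F) ≠ 0 := coe_ne_zero_restrictRing w ha
  constructor
  · intro h
    obtain ⟨b, hb⟩ := isUnit_iff_exists_inv.mp h
    have hb' : (a : F) * (b : F) = 1 := congrArg Subtype.val hb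
    have hbne : (b : F) ≠ 0 := by
      intro h0
      rw [h0, mul_zero] at hb'
      exact zero_ne_one hb'
    have hsum := rord_mul w ha0 hbne
    rw [hb', rord_one] at hsum
    have h1 : 0 ≤ rord w (a : F) := (mem_restrictRing w).mp a.2
    have h2 : 0 ≤ rord w (b : F) := (mem_restrictRing w).mp b.2
    omega
  · intro h0
    have hinv : (a : F)⁻¹ ∈ restrictRing (F := F) w := by
      rw [mem_restrictRing, rord_inv]; omega
    exact ⟨⟨a, ⟨(a : F)⁻¹, hinv⟩, Subtype.ext (mul_inv_cancel₀ ha0),
      Subtype.ext (inv_mul_cancel₀ ha0)⟩, rfl⟩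

theorem exists_min_pos_rord (hnt : ∃ t : F, rord w t ≠ 0) :
    ∃ (k : ℕ) (π : F), 0 < k ∧ π ≠ 0 ∧ rord w π = k ∧ ∀ f : F, (k : ℤ) ∣ rord w f := by
  classical
  obtain ⟨t, ht⟩ := hnt
  have hex : ∃ n : ℕ, 0 < n ∧ ∃ f : F, rord w f = n := by
    rcases lt_or_gt_of_ne ht with h | h
    · refine ⟨(rord w t⁻¹).toNat, ?_, t⁻¹, ?_⟩
      · rw [rord_inv]; omega
      · rw [rord_inv]; omega
    · exact ⟨(rord w t).toNat, by omega, t, by omega⟩
  let k := Nat.find hex
  obtain ⟨hk0, π, hπ⟩ := Nat.find_spec hex
  have hmin : ∀ n : ℕ, 0 < n → (∃ f : F, rord w f = n) → k ≤ n := fun n hn hf =>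
    Nat.find_min' hex ⟨hn, hf⟩
  have hπ0 : π ≠ 0 := by
    rintro rfl
    rw [rord_zero] at hπ
    have : (k : ℤ) = 0 := hπ.symm
    have hk0' : 0 < k := hk0
    omega
  refine ⟨k, π, hk0, hπ0, hπ, fun f => ?_⟩
  rcases eq_or_ne f 0 with rfl | hf
  · simp [rord_zero]
  set q := rord w f / (k : ℤ) with hq
  set r := rord w f % (k : ℤ) with hr
  have hk0' : (0 : ℤ) < k := by exact_mod_cast hk0
  have hr0 : 0 ≤ r := Int.emod_nonneg _ hk0'.ne'
  have hrk : r < k := Int.emod_lt_of_pos _ hk0'
  have hdecomp : rord w f = k * q + r := (Int.mul_ediv_add_emod _ _).symm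
  have hg : rord w (f * π ^ (-q)) = r := by
    rw [rord_mul w hf (zpow_ne_zero _ hπ0), rord_zpow, hπ, hdecomp]
    ring
  by_cases hr' : r = 0
  · exact Int.dvd_of_emod_eq_zero hr'
  · exfalso
    have := hmin r.toNat (by omega) ⟨_, by rw [hg]; omega⟩
    have hk0'' : 0 < k := hk0
    omega

theorem isDiscreteValuationRing_restrictRing (hnt : ∃ t : F, rord w t ≠ 0) :
    IsDiscreteValuationRing (restrictRing (F := F) w) := by
  obtain ⟨k, π, hk0, hπ0, hπ, hdvd⟩ := exists_min_pos_rord w hnt
  have hπmem : π ∈ restrictRing (F := F) w := by rw [mem_restrictRing, hπ]; positivity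
  have hk0' : (0 : ℤ) < k := by exact_mod_cast hk0
  apply IsDiscreteValuationRing.ofHasUnitMulPowIrreducibleFactorization
  refine ⟨⟨π, hπmem⟩, ?_, ?_⟩
  · have hπne : (⟨π, hπmem⟩ : restrictRing (F := F) w) ≠ 0 :=
      fun h => hπ0 (congrArg Subtype.val h)
    refine ⟨fun hu => ?_, fun a b hab => ?_⟩
    · have := (isUnit_restrictRing_iff w hπne).mp hu
      simp only at this
      omega
    · have hab' : π = (a : F) * (b : F) := congrArg Subtype.val hab
      have ha0 : a ≠ 0 := by
        rintro rfl
        apply hπ0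
        simpa using hab'
      have hb0 : b ≠ 0 := by
        rintro rfl
        apply hπ0
        simpa using hab'
      have ha0' : (a : F) ≠ 0 := coe_ne_zero_restrictRing w ha0
      have hb0' : (b : F) ≠ 0 := coe_ne_zero_restrictRing w hb0
      have hsum := rord_mul w ha0' hb0'
      rw [← hab', hπ] at hsum
      obtain ⟨ca, hca⟩ := hdvd (a : F)
      obtain ⟨cb, hcb⟩ := hdvd (b : F)
      have h1 : 0 ≤ rord w (a : F) := (mem_restrictRing w).mp a.2
      have h2 : 0 ≤ rord w (b : F) := (mem_restrictRing w).mp b.2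
      rw [isUnit_restrictRing_iff w ha0, isUnit_restrictRing_iff w hb0]
      have hca0 : 0 ≤ ca := by
        by_contra hneg
        push Not at hneg
        rw [hca] at h1
        nlinarith
      have hcb0 : 0 ≤ cb := by
        by_contra hneg
        push Not at hneg
        rw [hcb] at h2
        nlinarith
      have hsum' : (k : ℤ) * (ca + cb) = k * 1 := by rw [hca, hcb] at hsum; linarith
      have h3 : ca + cb = 1 := mul_left_cancel₀ hk0'.ne' hsum'
      rcases (show ca = 0 ∨ cb = 0 by omega) with h | h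
      · left; rw [hca, h, mul_zero]
      · right; rw [hcb, h, mul_zero]
  · intro x hx
    have hx0 : (x : F) ≠ 0 := coe_ne_zero_restrictRing w hx
    obtain ⟨c, hc⟩ := hdvd (x : F)
    have hxnn : 0 ≤ rord w (x : F) := (mem_restrictRing w).mp x.2
    have hc0 : 0 ≤ c := by
      by_contra hneg
      push Not at hneg
      rw [hc] at hxnn
      nlinarith
    refine ⟨c.toNat, ?_⟩
    have hu : rord w ((x : F) * (π ^ c.toNat)⁻¹) = 0 := by
      rw [rord_mul w hx0 (inv_ne_zero (pow_ne_zero _ hπ0)), rord_inv, rord_pow, hπ, hc]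
      have : ((c.toNat : ℕ) : ℤ) = c := Int.toNat_of_nonneg hc0
      rw [this]; ring
    have hmem : (x : F) * (π ^ c.toNat)⁻¹ ∈ restrictRing (F := F) w := by
      rw [mem_restrictRing, hu]
    have hne : (⟨_, hmem⟩ : restrictRing (F := F) w) ≠ 0 := fun h =>
      (mul_ne_zero hx0 (inv_ne_zero (pow_ne_zero _ hπ0))) (congrArg Subtype.val h)
    have hunit : IsUnit (⟨_, hmem⟩ : restrictRing (F := F) w) :=
      (isUnit_restrictRing_iff w hne).mpr hu
    refine ⟨hunit.unit, ?_⟩
    apply Subtype.ext
    have hπpow : π ^ c.toNat ≠ 0 := pow_ne_zero _ hπ0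
    show π ^ c.toNat * ((x : F) * (π ^ c.toNat)⁻¹) = (x : F)
    field_simp

/-- The restriction to `F` of a place of `F'/K'` that is nontrivial on `F`. -/
def restrictPlace (hnt : ∃ t : F, rord w t ≠ 0) : Place K F where
  toValuationSubring := restrictRing (F := F) w
  algebraMap_mem' := by
    intro a
    rw [mem_restrictRing, rord, ← IsScalarTower.algebraMap_apply K F F',
      IsScalarTower.algebraMap_apply K K' F', Fermat.Agent.S24.FF.ord_algebraMap]
  ne_top' := by
    intro htop
    obtain ⟨t, ht⟩ := hnt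
    have h1 : t ∈ restrictRing (F := F) w := htop ▸ ValuationSubring.mem_top t
    have h2 : t⁻¹ ∈ restrictRing (F := F) w := htop ▸ ValuationSubring.mem_top _
    rw [mem_restrictRing] at h1 h2
    rw [rord_inv] at h2
    omega
  isPrincipalIdealRing' := by
    have := isDiscreteValuationRing_restrictRing w hnt
    infer_instance

@[simp]
theorem restrictPlace_toValuationSubring (hnt : ∃ t : F, rord w t ≠ 0) :
    (restrictPlace (K := K) w hnt).toValuationSubring = restrictRing (F := F) w := rfl

theorem ord_restrictPlace_nonneg_iff (hnt : ∃ t : F, rord w t ≠ 0) (f : F) :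
    0 ≤ (restrictPlace (K := K) w hnt).ord f ↔ 0 ≤ rord w f := by
  rw [← mem_iff_ord_nonneg, restrictPlace_toValuationSubring, mem_restrictRing]

end Rord

end Fermat.Agent.S29.H871
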